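/-
S56lib / PT9 / PairNat2  (helper8).

Degree `(2, 1)` analogues of helper7's `Cpx/PairNat`: naturality of the pairing
`α² : Ext²(d, C) × H¹(FC d) → H²(G, C)`
* in the coefficient module `C` (`alpha2_mapR`);
* under a change of group / topology / coefficients (`pair21_nat`, `alpha2_PhiJ`: Shapiro).
-/
import Fermat.Agent.S55lib.Cpx.PairNat

set_option autoImplicit false
set_option linter.unusedSectionVars false

noncomputable section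

namespace Fermat.Agent.S56lib.PT9

universe u

open Fermat.Agent.S55lib Fermat.Agent.S55lib.Csm Fermat.Agent.S55lib.Cpx
  Fermat.Agent.S55lib.CFDual

/-! ### Cup products and change of group -/

section cups

variable {k G G' : Type u} [CommRing k] [Group G] [Group G'] {𝒰 : OpenBasis G}
  {𝒰' : OpenBasis G'} (f : G' →* G) {A B C : Rep.{u} k G} {A' B' C' : Rep.{u} k G'}
  (P : EqBilin A B C) (P' : EqBilin A' B' C')
  (α : Rep.res f A ⟶ A') (β : Rep.res f B ⟶ B') (γ : Rep.res f C ⟶ C')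
  (hP : ∀ (a : A) (b : B), P'.β (α.hom (a : Rep.res f A)) (β.hom (b : Rep.res f B)) =
    γ.hom ((P.β a b : C) : Rep.res f C))

include hP in
lemma fn₂_scup20_nat (a : (Csm 𝒰 A).X 2) (a' : (Csm 𝒰' A').X 2)
    (ha : ∀ d d', fn₂ a' (d, d') = α.hom ((fn₂ a (f d, f d') : A) : Rep.res f A))
    (x : (Csm 𝒰 B).X 0) (x' : (Csm 𝒰' B').X 0)
    (hx : fn₀ x' = β.hom ((fn₀ x : B) : Rep.res f B)) (d d' : G') :
    fn₂ (scup20 𝒰' P' a' x') (d, d') =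
      γ.hom ((fn₂ (scup20 𝒰 P a x) (f d, f d') : C) : Rep.res f C) := by
  rw [fn₂_scup20, fn₂_scup20]
  show P'.β (fn₂ a' (d, d')) (B'.ρ (d * d') (fn₀ x')) =
    γ.hom (P.β (fn₂ a (f d, f d')) (B.ρ (f d * f d') (fn₀ x)))
  rw [ha, hx, ← hP]
  congr 1
  rw [← map_mul]
  exact (Rep.hom_comm_apply β (d * d') _).symm

end cups

/-! ### Naturality of `pair21` for a change of group -/

section pair

variable {k G G' : Type u} [CommRing k] [Group G] [Group G'] (𝒰 : OpenBasis G)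
  (𝒰' : OpenBasis G') {A0 A1 B1 B0 C : Rep.{u} k G} (D : AdjData A0 A1 B1 B0 C)
  {A0' A1' B1' B0' C' : Rep.{u} k G'} (D' : AdjData A0' A1' B1' B0' C')

/-- naturality of `pair21` with respect to cochain maps compatible with the cochain pairings -/
theorem pair21_nat (F : Cpx.Hom (D.KC 𝒰) (D'.KC 𝒰')) (L : Cpx.Hom (D.LC 𝒰) (D'.LC 𝒰'))
    (T : Cpx.Hom (Csm 𝒰 C) (Csm 𝒰' C'))
    (h : ∀ κ l, D'.p21 𝒰' (F.f 2 κ) (L.f 1 l) = T.f 2 (D.p21 𝒰 κ l))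
    (e : (D.KC 𝒰).H 2) (y : (D.LC 𝒰).H 1) :
    D'.pair21 𝒰' (F.mapH 2 e) (L.mapH 1 y) = T.mapH 2 (D.pair21 𝒰 e y) := by
  obtain ⟨κ, hκ, rfl⟩ := (D.KC 𝒰).exists_rep e
  obtain ⟨l, hl, rfl⟩ := (D.LC 𝒰).exists_rep y
  rw [Hom.mapH_cl, Hom.mapH_cl, AdjData.pair21_cl, AdjData.pair21_cl, Hom.mapH_cl]
  exact cl_congr _ (h κ l) _

end pair

/-! ### Naturality of `α²` in the coefficient module -/

section mapR

variable {k G : Type u} [CommRing k] [Group G] (𝒰 : OpenBasis G) {P0 P1 : Rep.{u} k G}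
  (d : P1 ⟶ P0) {C C' : Rep.{u} k G} (f : C ⟶ C')

theorem alpha2_mapR (e : ExtH 𝒰 d C 2) (x : (FC 𝒰 d).H 1) :
    alpha2 𝒰 d C' ((ExtC.mapR 𝒰 d f).mapH 2 e) x = (Csm.map 𝒰 f).mapH 2 (alpha2 𝒰 d C e x) := by
  have hc : ∀ (κ : ((pairData d C).KC 𝒰).X 2) (l : ((pairData d C).LC 𝒰).X 1),
      (pairData d C').p21 𝒰 ((ExtC.mapR 𝒰 d f).f 2 κ) ((Cpx.Hom.id _).f 1 l) =
        (Csm.map 𝒰 f).f 2 ((pairData d C).p21 𝒰 κ l) := by
    rintro ⟨a, b⟩ ⟨y, x⟩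
    show (pairData d C').p21 𝒰
        (((Csm.map 𝒰 (homRep.mapR P0 f)).f 2 a, (Csm.map 𝒰 (homRep.mapR P1 f)).f 1 b) :
          (Csm 𝒰 (homRep P0 C')).X 2 × (Csm 𝒰 (homRep P1 C')).X 1)
        ((y, x) : (Csm 𝒰 P1).X 1 × (Csm 𝒰 P0).X 0) =
      (Csm.map 𝒰 f).f 2 ((pairData d C).p21 𝒰
        ((a, b) : (Csm 𝒰 (homRep P0 C)).X 2 × (Csm 𝒰 (homRep P1 C)).X 1)
        ((y, x) : (Csm 𝒰 P1).X 1 × (Csm 𝒰 P0).X 0))
    rw [AdjData.p21_apply, AdjData.p21_apply, map_sub]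
    congr 1
  have h := pair21_nat 𝒰 𝒰 (pairData d C) (pairData d C') (ExtC.mapR 𝒰 d f)
    (Cpx.Hom.id _) (Csm.map 𝒰 f) hc e x
  have h2 : (Cpx.Hom.id (FC 𝒰 d)).mapH 1 x = x := Hom.mapH_id 1 x
  calc alpha2 𝒰 d C' ((ExtC.mapR 𝒰 d f).mapH 2 e) x
      = alpha2 𝒰 d C' ((ExtC.mapR 𝒰 d f).mapH 2 e) ((Cpx.Hom.id (FC 𝒰 d)).mapH 1 x) := by rw [h2]
    _ = _ := h

/-- `α²` after a change of coefficients `f : C ⟶ C'` -/
def alpha2Cmp : ExtH 𝒰 d C 2 →ₗ[k] (FC 𝒰 d).H 1 →ₗ[k] (Csm 𝒰 C').H 2 :=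
  (alpha2 𝒰 d C').comp ((ExtC.mapR 𝒰 d f).mapH 2)

lemma alpha2Cmp_apply (e : ExtH 𝒰 d C 2) (x : (FC 𝒰 d).H 1) :
    alpha2Cmp 𝒰 d f e x = (Csm.map 𝒰 f).mapH 2 (alpha2 𝒰 d C e x) :=
  alpha2_mapR 𝒰 d f e x

lemma alpha2Cmp_bijective (h1 : Function.Bijective (alpha2 𝒰 d C'))
    (h2 : Function.Bijective ((ExtC.mapR 𝒰 d f).mapH 2)) :
    Function.Bijective (alpha2Cmp 𝒰 d f) :=
  h1.comp h2

end mapR

/-! ### Shapiro: `α²` and the localisation maps -/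

section shapiro

variable {k G : Type u} [CommRing k] [Group G] {𝒰 : OpenBasis G} {I : Type u}
  {D : I → Type u} [∀ i, Group (D i)] {r : ∀ i, D i →* G} {Y : ∀ i, Rep.{u} k (D i)}
  {J : Rep.{u} k G} (S : SmCoind 𝒰 D r Y J)
  {𝒱 : ∀ i, OpenBasis (D i)} (hco : ∀ i, Csm.Coarser (𝒰.comap (r i)) (𝒱 i))
  {N P0 P1 : Rep.{u} k G} [Module.Finite k P0] [Module.Finite k P1]
  (hP0 : IsSm 𝒰 P0) (hP1 : IsSm 𝒰 P1) (d : P1 ⟶ P0) (q : P0 ⟶ N)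
  (hq : ∀ x, q.hom (d.hom x) = 0)

/-- the cochain identity behind `alpha2_PhiJ` -/
lemma p21_PhiJ (i : I) (κ : ((pairData d J).KC 𝒰).X 2) (l : ((pairData d J).LC 𝒰).X 1) :
    (pairData (resHom (r i) d) (Y i)).p21 (𝒱 i) ((FourTerm.PhiJ S hco hP0 hP1 d i).f 2 κ)
      ((FourTerm.resFC hco d i).f 1 l) =
      (FourTerm.locJ S hco i).f 2 ((pairData d J).p21 𝒰 κ l) := by
  obtain ⟨a, b⟩ := κ
  obtain ⟨y, x⟩ := l
  show (pairData (resHom (r i) d) (Y i)).p21 (𝒱 i)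
      (((Csm.coarsen (hco i) _).f 2 (((S.hom P0 hP0).sh i).f 2 a),
        (Csm.coarsen (hco i) _).f 1 (((S.hom P1 hP1).sh i).f 1 b)) :
        (Csm (𝒱 i) (homRep (Rep.res (r i) P0) (Y i))).X 2 ×
          (Csm (𝒱 i) (homRep (Rep.res (r i) P1) (Y i))).X 1)
      (((FourTerm.resC hco P1 i).f 1 y, (FourTerm.resC hco P0 i).f 0 x) :
        (Csm (𝒱 i) (Rep.res (r i) P1)).X 1 × (Csm (𝒱 i) (Rep.res (r i) P0)).X 0) =
    (FourTerm.locJ S hco i).f 2 ((pairData d J).p21 𝒰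
      ((a, b) : (Csm 𝒰 (homRep P0 J)).X 2 × (Csm 𝒰 (homRep P1 J)).X 1)
      ((y, x) : (Csm 𝒰 P1).X 1 × (Csm 𝒰 P0).X 0))
  rw [AdjData.p21_apply, AdjData.p21_apply, map_sub]
  have h1 : scup20 (𝒱 i) (pairData (resHom (r i) d) (Y i)).β0
      ((Csm.coarsen (hco i) _).f 2 (((S.hom P0 hP0).sh i).f 2 a))
      ((FourTerm.resC hco P0 i).f 0 x) =
      (FourTerm.locJ S hco i).f 2 (scup20 𝒰 (pairData d J).β0 a x) := by
    apply ext₂
    funext ⟨g, h⟩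
    rw [FourTerm.fn₂_locJ]
    exact fn₂_scup20_nat (r i) (evalBilin P0 J) (evalBilin (Rep.res (r i) P0) (Y i))
      (S.homEv P0 i) (CategoryTheory.CategoryStruct.id (Rep.res (r i) P0)) (S.ev i)
      (fun _ _ => rfl) a ((Csm.coarsen (hco i) _).f 2 (((S.hom P0 hP0).sh i).f 2 a))
      (fun g' h' => Csm.fn₂_mapG (𝒰.isCont_comap (r i)) ((S.hom P0 hP0).ev i) a g' h')
      x ((FourTerm.resC hco P0 i).f 0 x) (FourTerm.fn₀_resC hco P0 i x) g h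
  have h2 : scup11 (𝒱 i) (pairData (resHom (r i) d) (Y i)).β1
      ((Csm.coarsen (hco i) _).f 1 (((S.hom P1 hP1).sh i).f 1 b))
      ((FourTerm.resC hco P1 i).f 1 y) =
      (FourTerm.locJ S hco i).f 2 (scup11 𝒰 (pairData d J).β1 b y) := by
    apply ext₂
    funext ⟨g, h⟩
    rw [FourTerm.fn₂_locJ]
    exact fn₂_scup11_nat (r i) (evalBilin P1 J) (evalBilin (Rep.res (r i) P1) (Y i))
      (S.homEv P1 i) (CategoryTheory.CategoryStruct.id (Rep.res (r i) P1)) (S.ev i)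
      (fun _ _ => rfl) b ((Csm.coarsen (hco i) _).f 1 (((S.hom P1 hP1).sh i).f 1 b))
      (fun _ => rfl) y ((FourTerm.resC hco P1 i).f 1 y) (fun _ => rfl) g h
  rw [h1, h2]

/-- **Shapiro for `α²`.** -/
theorem alpha2_PhiJ (i : I) (η : (ExtC 𝒰 d J).H 2) (x : (FC 𝒰 d).H 1) :
    alpha2 (𝒱 i) (resHom (r i) d) (Y i) ((FourTerm.PhiJ S hco hP0 hP1 d i).mapH 2 η)
      ((FourTerm.resFC hco d i).mapH 1 x) =
      (FourTerm.locJ S hco i).mapH 2 (alpha2 𝒰 d J η x) :=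
  pair21_nat 𝒰 (𝒱 i) (pairData d J) (pairData (resHom (r i) d) (Y i))
    (FourTerm.PhiJ S hco hP0 hP1 d i) (FourTerm.resFC hco d i) (FourTerm.locJ S hco i)
    (p21_PhiJ S hco hP0 hP1 d i) η x

/-- `H¹(FC d) → H⁰(G, N)` is compatible with restriction -/
lemma toCokerH_resFC0 (i : I) (x : (FC 𝒰 d).H 1) :
    Fib.toCokerH (Csm.map (𝒱 i) (resHom (r i) d)) (Csm.map (𝒱 i) (resHom (r i) q))
        (fun _ x => Subtype.ext (funext fun g => hq (x.1 g))) 0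
          ((FourTerm.resFC hco d i).mapH 1 x) =
      (FourTerm.resC hco N i).mapH 0 (Fib.toCokerH (Csm.map 𝒰 d) (Csm.map 𝒰 q)
        (fun _ x => Subtype.ext (funext fun g => hq (x.1 g))) 0 x) :=
  Fib.toCokerH_map (FourTerm.resC hco P1 i) (FourTerm.resC hco P0 i) (FourTerm.resC hco N i)
    (fun _ _ => rfl) (fun _ _ => rfl) _ _ 0 x

end shapiro

end Fermat.Agent.S56lib.PT9
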