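/-
S56lib / PT9 / FiveTerm  (helper8).

The abstract Poitou–Tate sequence of helper7's `Cpx/FourTerm`, one step further to the right:
  `H²(G, Hom(N, E)) --loc--> ∏ H²(D i, Hom(N, Y i)) --a²--> Ext²(d, C)`
is exact at the middle term, **provided** the Shapiro map `Ext²(d, J) → ∏ Ext²(res d, Y i)` is
surjective (hypothesis `hΦ2`; injectivity is `FourTerm.PhiJ_H2_injective`).  Moreover `a²` is
compatible with the pairings `α²` (`alpha2_a2Fun`, the degree `(2, 0)` analogue of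
`FourTerm.alpha1_aFun`).
-/
import Fermat.Agent.S56lib.PT9.PairNat2

set_option autoImplicit false
set_option linter.unusedSectionVars false

noncomputable section

namespace Fermat.Agent.S56lib.PT9

universe u

open Fermat.Agent.S55lib Fermat.Agent.S55lib.Csm Fermat.Agent.S55lib.Cpx
  Fermat.Agent.S55lib.CFDual

variable {k G : Type u} [CommRing k] [Group G] {𝒰 : OpenBasis G} {I : Type u}
  {D : I → Type u} [∀ i, Group (D i)] {r : ∀ i, D i →* G} {Y : ∀ i, Rep.{u} k (D i)}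
  {J : Rep.{u} k G} (S : SmCoind 𝒰 D r Y J)
  {𝒱 : ∀ i, OpenBasis (D i)} (hco : ∀ i, Csm.Coarser (𝒰.comap (r i)) (𝒱 i))
  {E C : Rep.{u} k G} (ι : E ⟶ J) (π : J ⟶ C)
  {N P0 P1 : Rep.{u} k G} [Module.Finite k P0] [Module.Finite k P1]
  (hP0 : IsSm 𝒰 P0) (hP1 : IsSm 𝒰 P1) (d : P1 ⟶ P0) (q : P0 ⟶ N)
  (hq : ∀ x, q.hom (d.hom x) = 0)
  [Finite I]
  (h90 : ∀ i, ∀ U ∈ (𝒰.comap (r i)).sets, ∃ U' ∈ (𝒰.comap (r i)).sets, U' ≤ U ∧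
    Csm.H1Vanishes (𝒱 i) (homRep (Rep.res (r i) P0) (Y i)) U')
  (hΦ2 : ∀ y : ∀ i, (ExtC (𝒱 i) (resHom (r i) d) (Y i)).H 2,
    ∃ x : (ExtC 𝒰 d J).H 2, ∀ i, (FourTerm.PhiJ S hco hP0 hP1 d i).mapH 2 x = y i)

/-- `Ext²(d, J) ≃ ∏ Ext²(res d, Y i)` -/
def PhiEquiv2 :
    (ExtC 𝒰 d J).H 2 ≃ₗ[k] (∀ i, (ExtC (𝒱 i) (resHom (r i) d) (Y i)).H 2) :=
  LinearEquiv.ofBijective (LinearMap.pi fun i => (FourTerm.PhiJ S hco hP0 hP1 d i).mapH 2)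
    ⟨by
      rw [← LinearMap.ker_eq_bot, LinearMap.ker_eq_bot']
      intro x hx
      exact FourTerm.PhiJ_H2_injective S hco hP0 hP1 d h90 x fun i => congrFun hx i,
     fun y => by
      obtain ⟨x, hx⟩ := hΦ2 y
      exact ⟨x, funext hx⟩⟩

lemma PhiEquiv2_apply (x : (ExtC 𝒰 d J).H 2) (i : I) :
    PhiEquiv2 S hco hP0 hP1 d h90 hΦ2 x i = (FourTerm.PhiJ S hco hP0 hP1 d i).mapH 2 x := rfl

/-- the map `∏ H²(D i, Hom(N, Y i)) → Ext²(d, C)` -/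
def a2 : (∀ i, (Csm (𝒱 i) (homRep (Rep.res (r i) N) (Y i))).H 2) →ₗ[k] (ExtC 𝒰 d C).H 2 :=
  ((ExtC.mapR 𝒰 d π).mapH 2).comp
    ((PhiEquiv2 S hco hP0 hP1 d h90 hΦ2).symm.toLinearMap.comp
      (LinearMap.pi fun i => ((FourTerm.ocY r d q hq 𝒱 Y i).mapH 2).comp (LinearMap.proj i)))

lemma a2_eq (y : ∀ i, (Csm (𝒱 i) (homRep (Rep.res (r i) N) (Y i))).H 2) (η : (ExtC 𝒰 d J).H 2)
    (h : ∀ i, (FourTerm.PhiJ S hco hP0 hP1 d i).mapH 2 η =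
      (FourTerm.ocY r d q hq 𝒱 Y i).mapH 2 (y i)) :
    a2 S hco π hP0 hP1 d q hq h90 hΦ2 y = (ExtC.mapR 𝒰 d π).mapH 2 η := by
  show (ExtC.mapR 𝒰 d π).mapH 2 ((PhiEquiv2 S hco hP0 hP1 d h90 hΦ2).symm _) = _
  congr 1
  rw [LinearEquiv.symm_apply_eq]
  funext i
  exact (h i).symm

include hΦ2 in
lemma exists_of_a2 (y : ∀ i, (Csm (𝒱 i) (homRep (Rep.res (r i) N) (Y i))).H 2) :
    ∃ η : (ExtC 𝒰 d J).H 2,
      (∀ i, (FourTerm.PhiJ S hco hP0 hP1 d i).mapH 2 η =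
        (FourTerm.ocY r d q hq 𝒱 Y i).mapH 2 (y i)) ∧
      a2 S hco π hP0 hP1 d q hq h90 hΦ2 y = (ExtC.mapR 𝒰 d π).mapH 2 η := by
  obtain ⟨η, hη⟩ := hΦ2 (fun i => (FourTerm.ocY r d q hq 𝒱 Y i).mapH 2 (y i))
  exact ⟨η, hη, a2_eq S hco π hP0 hP1 d q hq h90 hΦ2 y η hη⟩

/-- `a²` as a plain function -/
def a2Fun (y : ∀ i, (Csm (𝒱 i) (homRep (Rep.res (r i) N) (Y i))).H 2) : (ExtC 𝒰 d C).H 2 :=
  a2 S hco π hP0 hP1 d q hq h90 hΦ2 y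

lemma a2Fun_add (y y' : ∀ i, (Csm (𝒱 i) (homRep (Rep.res (r i) N) (Y i))).H 2) :
    a2Fun S hco π hP0 hP1 d q hq h90 hΦ2 (fun i => y i + y' i) =
      a2Fun S hco π hP0 hP1 d q hq h90 hΦ2 y + a2Fun S hco π hP0 hP1 d q hq h90 hΦ2 y' :=
  map_add (a2 S hco π hP0 hP1 d q hq h90 hΦ2) y y'

lemma a2Fun_zero : a2Fun S hco π hP0 hP1 d q hq h90 hΦ2 (fun _ => 0) = 0 :=
  map_zero (a2 S hco π hP0 hP1 d q hq h90 hΦ2)

lemma a2Fun_eq (y : ∀ i, (Csm (𝒱 i) (homRep (Rep.res (r i) N) (Y i))).H 2)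
    (η : (ExtC 𝒰 d J).H 2)
    (h : ∀ i, (FourTerm.PhiJ S hco hP0 hP1 d i).mapH 2 η =
      (FourTerm.ocY r d q hq 𝒱 Y i).mapH 2 (y i)) :
    a2Fun S hco π hP0 hP1 d q hq h90 hΦ2 y = (ExtC.mapR 𝒰 d π).mapH 2 η :=
  a2_eq S hco π hP0 hP1 d q hq h90 hΦ2 y η h

lemma exists_of_a2Fun (y : ∀ i, (Csm (𝒱 i) (homRep (Rep.res (r i) N) (Y i))).H 2) :
    ∃ η : (ExtC 𝒰 d J).H 2,
      (∀ i, (FourTerm.PhiJ S hco hP0 hP1 d i).mapH 2 η =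
        (FourTerm.ocY r d q hq 𝒱 Y i).mapH 2 (y i)) ∧
      a2Fun S hco π hP0 hP1 d q hq h90 hΦ2 y = (ExtC.mapR 𝒰 d π).mapH 2 η :=
  exists_of_a2 S hco π hP0 hP1 d q hq h90 hΦ2 y

/-- **Abstract compatibility in degree `(2, 0)`**: the pairing of `a²(y)` with a global class `x` is
the image under `π : J → C` of a class in `H²(G, J)` whose local components are the local pairings
of `y i` with the restrictions of `x`. -/
theorem alpha2_a2Fun (y : ∀ i, (Csm (𝒱 i) (homRep (Rep.res (r i) N) (Y i))).H 2)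
    (x : (FC 𝒰 d).H 1) :
    ∃ z : (Csm 𝒰 J).H 2,
      alpha2 𝒰 d C (a2Fun S hco π hP0 hP1 d q hq h90 hΦ2 y) x = (Csm.map 𝒰 π).mapH 2 z ∧
      (∀ i, (FourTerm.locJ S hco i).mapH 2 z =
        alpha2 (𝒱 i) (resHom (r i) d) (Y i) ((FourTerm.ocY r d q hq 𝒱 Y i).mapH 2 (y i))
          ((FourTerm.resFC hco d i).mapH 1 x)) ∧
      ∀ n : ℕ, n • x = 0 → n • z = 0 := by
  obtain ⟨η, hη, ha⟩ := exists_of_a2Fun S hco π hP0 hP1 d q hq h90 hΦ2 y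
  refine ⟨alpha2 𝒰 d J η x, ?_, fun i => ?_, fun n hn => ?_⟩
  · rw [ha, alpha2_mapR]
  · rw [← alpha2_PhiJ S hco hP0 hP1 d i η x, hη i]
  · rw [← map_nsmul, hn, map_zero]

variable (r) in
/-- the local pairing `H²(D i, Hom(N, Y i)) × H¹(FC (res d)) → H²(D i, Y i)` -/
def alpha2Oc (𝒱 : ∀ i, OpenBasis (D i)) (Y : ∀ i, Rep.{u} k (D i)) (i : I) :
    (Csm (𝒱 i) (homRep (Rep.res (r i) N) (Y i))).H 2 →ₗ[k]
      (FC (𝒱 i) (resHom (r i) d)).H 1 →ₗ[k] (Csm (𝒱 i) (Y i)).H 2 :=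
  (alpha2 (𝒱 i) (resHom (r i) d) (Y i)).comp ((FourTerm.ocY r d q hq 𝒱 Y i).mapH 2)

lemma alpha2Oc_apply (i : I) (y : (Csm (𝒱 i) (homRep (Rep.res (r i) N) (Y i))).H 2)
    (x : (FC (𝒱 i) (resHom (r i) d)).H 1) :
    alpha2Oc r d q hq 𝒱 Y i y x =
      alpha2 (𝒱 i) (resHom (r i) d) (Y i) ((FourTerm.ocY r d q hq 𝒱 Y i).mapH 2 y) x := rfl

lemma alpha2Oc_bijective (i : I)
    (h1 : Function.Bijective (alpha2 (𝒱 i) (resHom (r i) d) (Y i)))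
    (h2 : Function.Bijective ((FourTerm.ocY r d q hq 𝒱 Y i).mapH 2)) :
    Function.Bijective (alpha2Oc r d q hq 𝒱 Y i) :=
  h1.comp h2

section exactness

variable [Module.Projective k P0] [Module.Projective k P1]
  (hι : Function.Injective ι.hom) (hπ : Function.Surjective π.hom)
  (hex : ∀ b : J, π.hom b = 0 ↔ ∃ a, ι.hom a = b)
  (hqs : Function.Surjective q.hom) (hqex : ∀ x : P0, q.hom x = 0 ↔ ∃ y, d.hom y = x)
  (hE : IsSm 𝒰 E) (hextE : Function.Surjective (homRep.mapL d E).hom)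
  (hY : ∀ i, IsSm (𝒱 i) (Y i))
  (hextY : ∀ i, Function.Surjective (homRep.mapL (resHom (r i) d) (Y i)).hom)

include hι hπ hex hqs hqex hE hextE hY hextY in
/-- exactness at `∏ H²(D i, Hom(N, Y i))` -/
theorem exact_P2 (y : ∀ i, (Csm (𝒱 i) (homRep (Rep.res (r i) N) (Y i))).H 2) :
    a2Fun S hco π hP0 hP1 d q (fun x => (hqex _).2 ⟨x, rfl⟩) h90 hΦ2 y = 0 ↔
      ∃ x : (Csm 𝒰 (homRep N E)).H 2, ∀ i, (FourTerm.locE S hco ι N i).mapH 2 x = y i := by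
  have hq0 : ∀ x, q.hom (d.hom x) = 0 := fun x => (hqex _).2 ⟨x, rfl⟩
  obtain ⟨η, hη, ha⟩ := exists_of_a2Fun S hco π hP0 hP1 d q hq0 h90 hΦ2 y
  rw [ha, (FourTerm.ses S ι π hP0 hP1 d hι hπ hex).exact_mid 2 η]
  constructor
  · rintro ⟨ε, rfl⟩
    obtain ⟨x, rfl⟩ := (FourTerm.ocE_bijective hP0 d q hqs hqex hE hextE 2).2 ε
    refine ⟨x, fun i => ?_⟩
    apply (FourTerm.ocY_bijective hco hP0 d q hqs hqex hY hextY i 2).1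
    rw [← FourTerm.square S hco ι hP0 hP1 d q hq0 i 2 x, hη i]
  · rintro ⟨x, hx⟩
    refine ⟨(FourTerm.ocE d q hq0 𝒰 E).mapH 2 x, ?_⟩
    rw [← sub_eq_zero]
    refine FourTerm.PhiJ_H2_injective S hco hP0 hP1 d h90 _ fun i => ?_
    rw [map_sub, FourTerm.square S hco ι hP0 hP1 d q hq0 i 2 x, hx i, hη i, sub_self]

end exactness

end Fermat.Agent.S56lib.PT9
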