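/-
S56lib / PT9 / Global  (helper8).

The `H²`-end of the Poitou–Tate sequence for `G_S`, first half: with `M′ = M^∨(1)`, `N = M′` as a
`ℤ[G_ℚ]`-module and helper7's two-term resolution `R` of `N`,
  `a² : ∏_{q ∈ S} H²(G_q, M) → Ext²(R, C_S)`
and the sequence `H²(G_S, M) → ∏ H²(G_q, M) → Ext²(R, C_S)` is exact at the middle term
(`PT9.exact_P2_glob`).  Instantiation of `PT9/FiveTerm` at `0 → E_S → J_S → C_S → 0`, under the
hypothesis `HΦ2` (surjectivity of the Shapiro map on `Ext²(R, J_S)`).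
-/
import Fermat.Agent.S56lib.PT9.FiveTerm
import Fermat.Agent.S55lib.GlobDual.H1Ident

set_option autoImplicit false

noncomputable section

namespace Fermat.Agent.S56lib.PT9

open Fermat.Agent.S55lib Fermat.Agent.S55lib.Cpx Fermat.Agent.S55lib.CFDual
  groupCohomology ExtCitation

variable (S : Finset Nat.Primes) {p : ℕ} [hp : Fact p.Prime]
  (hpS : (⟨p, hp.out⟩ : Nat.Primes) ∈ S)
  (M : Rep.{0} (ZMod p) GQ) [FiniteDimensional (ZMod p) M]
  (hM : Sm.IsSmooth (MonoidHom.id GQ) (LevelClass.unr S) M)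

/-- **Shapiro in degree 2** for `Ext(R, J_S)`: every family of local classes comes from a global
class of `Ext²(R, J_S)`. -/
def HΦ2 : Prop :=
  ∀ y : ∀ q : S, (ExtC (basisLoc q.1) (resHom (rloc q.1) (PT.R S hpS M hM).d) (Yloc q.1)).H 2,
    ∃ x : (ExtC (basisS S) (PT.R S hpS M hM).d (JSrep S)).H 2,
      ∀ q : S, (FourTerm.PhiJ (jsCoind S) (PT.hco S) (PT.R S hpS M hM).sm0 (PT.R S hpS M hM).sm1
        (PT.R S hpS M hM).d q).mapH 2 x = y q

/-- `Ext²(M′, C_S)` -/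
abbrev X2 : Type := ExtH (basisS S) (PT.R S hpS M hM).d (CSrep S) 2

/-- `H²(G_q, M) ≃ H²(G_q, Hom(M′, (ℚ̄_q)ˣ))` -/
def e2 (q : S) : H2loc M q.1 →+
    (Csm (basisLoc q.1) (homRep (Rep.res (rloc q.1) (PT.N M)) (Yloc q.1))).H 2 :=
  (PT.ψ2loc S hpS M q).toAddMonoidHom.comp
    (AddEquiv.ofBijective (PT.φ2loc S M q) (PT.φ2loc_bijective S M hM q)).symm.toAddMonoidHom

lemma e2_φ2loc (q : S) (y : (Csm (basisLoc q.1) (Rep.res (rloc q.1) (toIntRep M))).H 2) :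
    e2 S hpS M hM q (PT.φ2loc S M q y) = PT.ψ2loc S hpS M q y := by
  show PT.ψ2loc S hpS M q ((AddEquiv.ofBijective (PT.φ2loc S M q)
    (PT.φ2loc_bijective S M hM q)).symm (PT.φ2loc S M q y)) = _
  congr 1
  exact (AddEquiv.ofBijective (PT.φ2loc S M q) (PT.φ2loc_bijective S M hM q)).symm_apply_apply y

lemma e2_bijective (q : S) : Function.Bijective (e2 S hpS M hM q) :=
  (PT.ψ2loc_bijective S hpS M q).comp
    (AddEquiv.ofBijective (PT.φ2loc S M q) (PT.φ2loc_bijective S M hM q)).symm.bijective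

variable (hΦ : HΦ2 S hpS M hM)

/-- the map `a²` of `PT9/FiveTerm` -/
def a20 (y : ∀ q : S,
    (Csm (basisLoc q.1) (homRep (Rep.res (rloc q.1) (PT.N M)) (Yloc q.1))).H 2) :
    X2 S hpS M hM :=
  a2Fun (jsCoind S) (PT.hco S) (pCS S) (PT.R S hpS M hM).sm0
    (PT.R S hpS M hM).sm1 (PT.R S hpS M hM).d (PT.R S hpS M hM).q
    (PT.hqd S hpS M hM) (fun q => h90_hom S q.1 (PT.R S hpS M hM)) hΦ y

lemma a20_add (y y' : ∀ q : S,
    (Csm (basisLoc q.1) (homRep (Rep.res (rloc q.1) (PT.N M)) (Yloc q.1))).H 2) :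
    a20 S hpS M hM hΦ (fun q => y q + y' q) = a20 S hpS M hM hΦ y + a20 S hpS M hM hΦ y' :=
  a2Fun_add _ _ _ _ _ _ _ _ _ _ y y'

lemma a20_zero : a20 S hpS M hM hΦ (fun _ => 0) = 0 :=
  a2Fun_zero _ _ _ _ _ _ _ _ _ _

/-- `a² : ∏_{q ∈ S} H²(G_q, M) → Ext²(M′, C_S)` -/
def a2glob : H2locAll S M →+ X2 S hpS M hM where
  toFun y := a20 S hpS M hM hΦ (fun q => e2 S hpS M hM q (y q))
  map_zero' := by
    rw [← a20_zero S hpS M hM hΦ]
    congr 1
    funext q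
    exact map_zero (e2 S hpS M hM q)
  map_add' y y' := by
    rw [← a20_add]
    congr 1
    funext q
    exact map_add (e2 S hpS M hM q) (y q) (y' q)

lemma a2glob_apply (y : H2locAll S M) :
    a2glob S hpS M hM hΦ y = a20 S hpS M hM hΦ (fun q => e2 S hpS M hM q (y q)) := rfl

/-- **exactness at `∏_{q ∈ S} H²(G_q, M)`** -/
theorem exact_P2_glob (y : H2locAll S M) :
    a2glob S hpS M hM hΦ y = 0 ↔ ∃ x : H2S S M, locAll2 S M x = y := by
  have h1 := exact_P2 (jsCoind S) (PT.hco S) (iES S) (pCS S)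
    (PT.R S hpS M hM).sm0 (PT.R S hpS M hM).sm1 (PT.R S hpS M hM).d (PT.R S hpS M hM).q
    (fun q => h90_hom S q.1 (PT.R S hpS M hM)) hΦ
    (iES_injective S ⟨_, hpS⟩) (pCS_surjective S) (pCS_eq_zero_iff S)
    (PT.R S hpS M hM).q_surj (PT.R S hpS M hM).exact (isSm_ESrep S) (PT.hextE S hpS M hM)
    (fun q => isSm_Yloc q.1) (PT.hextY S hpS M hM) (fun q => e2 S hpS M hM q (y q))
  show a2Fun _ _ _ _ _ _ _ _ _ _ _ = 0 ↔ _
  rw [h1]
  constructor
  · rintro ⟨x0, hx0⟩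
    obtain ⟨x', rfl⟩ := (PT.ψ2_bijective S hpS M).2 x0
    refine ⟨PT.φ2 S M x', ?_⟩
    funext q
    show loc2 S M q.1 (PT.φ2 S M x') = y q
    rw [← PT.φ2loc_resq]
    apply (e2_bijective S hpS M hM q).1
    rw [e2_φ2loc, ← hx0 q]
    exact (PT.locE_globTwist S hpS M q 2 x').symm
  · rintro ⟨x, rfl⟩
    obtain ⟨x', rfl⟩ := (PT.φ2_bijective S M hM).2 x
    refine ⟨PT.ψ2 S hpS M x', fun q => ?_⟩
    show _ = e2 S hpS M hM q (loc2 S M q.1 (PT.φ2 S M x'))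
    rw [← PT.φ2loc_resq, e2_φ2loc]
    exact PT.locE_globTwist S hpS M q 2 x'

end Fermat.Agent.S56lib.PT9
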