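/-
S56lib / PT9 / Inv0  (helper8).

`H⁰` of the smooth cochain complex is the module of invariants: the map
`inv0 : H⁰(Csm 𝒰 A) → A`, injective with image the `G`-invariants, and its compatibility with
restriction to a subgroup / change of topology.
-/
import Fermat.Agent.S55lib.Cpx.PairNat

set_option autoImplicit false
set_option linter.unusedSectionVars false

noncomputable section

namespace Fermat.Agent.S56lib.PT9

universe u

open Fermat.Agent.S55lib Fermat.Agent.S55lib.Csm Fermat.Agent.S55lib.Cpx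

section

variable {k G : Type u} [CommRing k] [Group G] (𝒰 : OpenBasis G) (A : Rep.{u} k G)

/-- the element underlying a `0`-cochain, as a linear map -/
def fn₀Lin : (Csm 𝒰 A).X 0 →ₗ[k] A :=
  (smFun₀ 𝒰 A).subtype.comp (equiv₀ 𝒰 A).toLinearMap

lemma fn₀Lin_apply (x : (Csm 𝒰 A).X 0) : fn₀Lin 𝒰 A x = fn₀ x := rfl

/-- `H⁰(Csm 𝒰 A) → A` -/
def inv0 : (Csm 𝒰 A).H 0 →ₗ[k] A :=
  Submodule.liftQ _ ((fn₀Lin 𝒰 A).comp ((Csm 𝒰 A).Z 0).subtype) (by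
    intro x hx
    have h1 : x.1 ∈ (Csm 𝒰 A).B 0 := hx
    rw [Cpx.mem_B_zero] at h1
    rw [LinearMap.mem_ker, LinearMap.comp_apply, Submodule.subtype_apply, h1, map_zero])

lemma inv0_cl (x : (Csm 𝒰 A).X 0) (hx : (Csm 𝒰 A).d 0 x = 0) :
    inv0 𝒰 A ((Csm 𝒰 A).cl x hx) = fn₀ x := rfl

lemma ρ_inv0 (h : (Csm 𝒰 A).H 0) (g : G) : A.ρ g (inv0 𝒰 A h) = inv0 𝒰 A h := by
  obtain ⟨x, hx, rfl⟩ := (Csm 𝒰 A).exists_rep h
  rw [inv0_cl]
  exact (d_zero_eq_zero_iff x).1 hx g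

lemma inv0_injective : Function.Injective (inv0 𝒰 A) := by
  rw [← LinearMap.ker_eq_bot, LinearMap.ker_eq_bot']
  intro h hh
  obtain ⟨x, hx, rfl⟩ := (Csm 𝒰 A).exists_rep h
  rw [inv0_cl] at hh
  rw [Cpx.cl_zero_eq_zero_iff]
  exact ext₀ (hh.trans fn₀_zero.symm)

lemma exists_inv0_eq (a : A) (ha : ∀ g, A.ρ g a = a) : ∃ h, inv0 𝒰 A h = a := by
  obtain ⟨U, hU⟩ := 𝒰.nonempty
  let x : (Csm 𝒰 A).X 0 := mk₀ a ⟨U, hU, fun s _ => ha s⟩
  have hx : (Csm 𝒰 A).d 0 x = 0 := (d_zero_eq_zero_iff x).2 ha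
  exact ⟨(Csm 𝒰 A).cl x hx, rfl⟩

end

section res

variable {k G : Type u} [CommRing k] [Group G] {𝒰 : OpenBasis G} {I : Type u}
  {D : I → Type u} [∀ i, Group (D i)] {r : ∀ i, D i →* G}
  {𝒱 : ∀ i, OpenBasis (D i)} (hco : ∀ i, Csm.Coarser (𝒰.comap (r i)) (𝒱 i))

/-- restriction does not change the underlying invariant element -/
lemma inv0_resC (P : Rep.{u} k G) (i : I) (h : (Csm 𝒰 P).H 0) :
    inv0 (𝒱 i) (Rep.res (r i) P) ((FourTerm.resC hco P i).mapH 0 h) = inv0 𝒰 P h := by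
  obtain ⟨x, hx, rfl⟩ := (Csm 𝒰 P).exists_rep h
  rw [Cpx.Hom.mapH_cl, inv0_cl, inv0_cl]
  exact FourTerm.fn₀_resC hco P i x

end res

end Fermat.Agent.S56lib.PT9
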