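/-
S56lib / PT9 / Pair2  (helper8).

The pairing half of the `H²`-end of Poitou–Tate: the global duality map
`α² : Ext²(M′, C_S) → H⁰(G_ℚ, M′)^∨` (injective by the global `K4`), the local duality maps
`β²_q : H²(G_q, Hom(M′, ℚ̄_qˣ)) ≃ H⁰(G_q, M′)^∨` (bijective by the local `K4`), and the compatibility
`α²(a²(y))(x) = ∑_q β²_q(y_q)(x)` (from the sum formula of the invariant data).
-/
import Fermat.Agent.S56lib.PT9.Global
import Fermat.Agent.S56lib.PT9.Inv0
import Fermat.Agent.S55lib.GlobDual.PTPair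

set_option autoImplicit false
set_option linter.unusedSectionVars false

noncomputable section

namespace Fermat.Agent.S56lib.PT9

open Fermat.Agent.S55lib Fermat.Agent.S55lib.Cpx Fermat.Agent.S55lib.CFDual
  groupCohomology ExtCitation CategoryTheory

variable (S : Finset Nat.Primes) {p : ℕ} [hp : Fact p.Prime]
  (hpS : (⟨p, hp.out⟩ : Nat.Primes) ∈ S)
  (M : Rep.{0} (ZMod p) GQ) [FiniteDimensional (ZMod p) M]
  (hM : Sm.IsSmooth (MonoidHom.id GQ) (LevelClass.unr S) M)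

/-! ### The invariants `H⁰(G_ℚ, M′)`, `H⁰(G_q, M′)` -/

/-- `H⁰(G_ℚ, M′)`, `M′ = M^∨(1)` -/
def D0 : Submodule (ZMod p) (M.dualTwist (cycloChar p)) :=
  (M.dualTwist (cycloChar p)).ρ.invariants

/-- `H⁰(G_q, M′)` -/
def D0q (q : Nat.Primes) : Submodule (ZMod p) (M.dualTwist (cycloChar p)) :=
  Representation.invariants
    (((M.dualTwist (cycloChar p)).ρ.comp (rloc q) :
      Representation (ZMod p) (Gloc q) (M.dualTwist (cycloChar p))))

lemma mem_D0 (x : M.dualTwist (cycloChar p)) :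
    x ∈ D0 M ↔ ∀ g : GQ, (M.dualTwist (cycloChar p)).ρ g x = x :=
  Representation.mem_invariants _ _

lemma mem_D0q (q : Nat.Primes) (x : M.dualTwist (cycloChar p)) :
    x ∈ D0q M q ↔ ∀ g : Gloc q, (M.dualTwist (cycloChar p)).ρ (rloc q g) x = x :=
  Representation.mem_invariants _ _

lemma D0_le_D0q (q : Nat.Primes) : D0 M ≤ D0q M q := fun x hx =>
  (mem_D0q M q x).2 fun g => (mem_D0 M x).1 hx (rloc q g)

/-- the inclusion `H⁰(G_ℚ, M′) → H⁰(G_q, M′)` -/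
def inclq (q : Nat.Primes) : D0 M →ₗ[ZMod p] D0q M q :=
  Submodule.inclusion (D0_le_D0q M q)

lemma inclq_injective (q : Nat.Primes) : Function.Injective (inclq M q) :=
  Submodule.inclusion_injective _

lemma nsmul_D0 (x : D0 M) : p • x = 0 := ZModModule.char_nsmul_eq_zero p x

lemma nsmul_D0q (q : Nat.Primes) (x : D0q M q) : p • x = 0 := ZModModule.char_nsmul_eq_zero p x

/-! ### The identifications `H¹(FC R.d) ≃ H⁰(G_ℚ, M′)`, `H¹(FC (res_q R.d)) ≃ H⁰(G_q, M′)` -/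

/-- `H¹(FC R.d) → H⁰(G_S, M′)` on the hub's cohomology -/
def κS0 : (FC (basisS S) (PT.R S hpS M hM).d).H 1 →ₗ[ℤ] (Csm (basisS S) (PT.N M)).H 0 :=
  Fib.toCokerH (Csm.map (basisS S) (PT.R S hpS M hM).d) (Csm.map (basisS S) (PT.R S hpS M hM).q)
    (fun _ x => Subtype.ext (funext fun g => PT.hqd S hpS M hM (x.1 g))) 0

lemma κS0_bijective : Function.Bijective (κS0 S hpS M hM) :=
  Fib.toCokerH_bijective _ _ (PT.sesS S hpS M hM) 0

/-- `θS0 : H¹(FC R.d) ≃ H⁰(G_ℚ, M′)` -/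
def θS0 : (FC (basisS S) (PT.R S hpS M hM).d).H 1 →+ D0 M where
  toFun x := ⟨inv0 (basisS S) (PT.N M) (κS0 S hpS M hM x), (mem_D0 M _).2 fun g =>
    ρ_inv0 (basisS S) (PT.N M) (κS0 S hpS M hM x) g⟩
  map_zero' := by
    apply Subtype.ext
    show inv0 (basisS S) (PT.N M) (κS0 S hpS M hM 0) = 0
    rw [map_zero, map_zero]
  map_add' x y := by
    apply Subtype.ext
    show inv0 (basisS S) (PT.N M) (κS0 S hpS M hM (x + y)) =
      inv0 (basisS S) (PT.N M) (κS0 S hpS M hM x) + inv0 (basisS S) (PT.N M) (κS0 S hpS M hM y)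
    rw [map_add, map_add]

lemma θS0_val (x : (FC (basisS S) (PT.R S hpS M hM).d).H 1) :
    ((θS0 S hpS M hM x : D0 M) : M.dualTwist (cycloChar p)) =
      inv0 (basisS S) (PT.N M) (κS0 S hpS M hM x) := rfl

lemma θS0_bijective : Function.Bijective (θS0 S hpS M hM) := by
  constructor
  · intro x y hxy
    apply (κS0_bijective S hpS M hM).1
    apply inv0_injective (basisS S) (PT.N M)
    exact congrArg Subtype.val hxy
  · intro a
    obtain ⟨h, hh⟩ := exists_inv0_eq (basisS S) (PT.N M) a.1 fun g => (mem_D0 M a.1).1 a.2 g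
    obtain ⟨x, rfl⟩ := (κS0_bijective S hpS M hM).2 h
    exact ⟨x, Subtype.ext hh⟩

/-- `H¹(FC (res_q R.d)) → H⁰(G_q, M′)` on the hub's cohomology -/
def κq0 (q : S) : (FC (basisLoc q.1) (resHom (rloc q.1) (PT.R S hpS M hM).d)).H 1 →ₗ[ℤ]
    (Csm (basisLoc q.1) (Rep.res (rloc q.1) (PT.N M))).H 0 :=
  Fib.toCokerH (Csm.map (basisLoc q.1) (resHom (rloc q.1) (PT.R S hpS M hM).d))
    (Csm.map (basisLoc q.1) (resHom (rloc q.1) (PT.R S hpS M hM).q))
    (fun _ x => Subtype.ext (funext fun g => PT.hqd S hpS M hM (x.1 g))) 0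

lemma κq0_bijective (q : S) : Function.Bijective (κq0 S hpS M hM q) :=
  Fib.toCokerH_bijective _ _ (PT.sesq S hpS M hM q) 0

/-- `θq0 q : H¹(FC (res_q R.d)) ≃ H⁰(G_q, M′)` -/
def θq0 (q : S) : (FC (basisLoc q.1) (resHom (rloc q.1) (PT.R S hpS M hM).d)).H 1 →+
    D0q M q.1 where
  toFun x := ⟨inv0 (basisLoc q.1) (Rep.res (rloc q.1) (PT.N M)) (κq0 S hpS M hM q x),
    (mem_D0q M q.1 _).2 fun g =>
      ρ_inv0 (basisLoc q.1) (Rep.res (rloc q.1) (PT.N M)) (κq0 S hpS M hM q x) g⟩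
  map_zero' := by
    apply Subtype.ext
    show inv0 (basisLoc q.1) (Rep.res (rloc q.1) (PT.N M)) (κq0 S hpS M hM q 0) = 0
    rw [map_zero, map_zero]
  map_add' x y := by
    apply Subtype.ext
    show inv0 (basisLoc q.1) (Rep.res (rloc q.1) (PT.N M)) (κq0 S hpS M hM q (x + y)) =
      inv0 (basisLoc q.1) (Rep.res (rloc q.1) (PT.N M)) (κq0 S hpS M hM q x) +
        inv0 (basisLoc q.1) (Rep.res (rloc q.1) (PT.N M)) (κq0 S hpS M hM q y)
    rw [map_add, map_add]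

lemma θq0_bijective (q : S) : Function.Bijective (θq0 S hpS M hM q) := by
  constructor
  · intro x y hxy
    apply (κq0_bijective S hpS M hM q).1
    apply inv0_injective (basisLoc q.1) (Rep.res (rloc q.1) (PT.N M))
    exact congrArg Subtype.val hxy
  · intro a
    obtain ⟨h, hh⟩ := exists_inv0_eq (basisLoc q.1) (Rep.res (rloc q.1) (PT.N M)) a.1
      fun g => (mem_D0q M q.1 a.1).1 a.2 g
    obtain ⟨x, rfl⟩ := (κq0_bijective S hpS M hM q).2 h
    exact ⟨x, Subtype.ext hh⟩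

/-- **compatibility of the identifications with localisation** -/
theorem θq0_resFC (q : S) (x : (FC (basisS S) (PT.R S hpS M hM).d).H 1) :
    θq0 S hpS M hM q ((FourTerm.resFC (PT.hco S) (PT.R S hpS M hM).d q).mapH 1 x) =
      inclq M q.1 (θS0 S hpS M hM x) := by
  apply Subtype.ext
  have h := toCokerH_resFC0 (PT.hco S) (PT.R S hpS M hM).d (PT.R S hpS M hM).q
    (PT.hqd S hpS M hM) q x
  show inv0 (basisLoc q.1) (Rep.res (rloc q.1) (PT.N M))
    (κq0 S hpS M hM q ((FourTerm.resFC (PT.hco S) (PT.R S hpS M hM).d q).mapH 1 x)) =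
    inv0 (basisS S) (PT.N M) (κS0 S hpS M hM x)
  rw [← inv0_resC (PT.hco S) (PT.N M) q (κS0 S hpS M hM x)]
  exact congrArg (inv0 (basisLoc q.1) (Rep.res (rloc q.1) (PT.N M))) h

/-! ### The global pairing -/

/-- the global pairing `Ext²(M′, C_S) × H¹(FC R.d) → H²(G_S, CSfull S)` -/
def AS2 := alpha2Cmp (basisS S) (PT.R S hpS M hM).d (Fermat.Agent.S55lib.cmp S)

lemma AS2_apply (ξ : X2 S hpS M hM) (x : (FC (basisS S) (PT.R S hpS M hM).d).H 1) :
    AS2 S hpS M hM ξ x = (Csm.map (basisS S) (Fermat.Agent.S55lib.cmp S)).mapH 2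
      (alpha2 (basisS S) (PT.R S hpS M hM).d (CSrep S) ξ x) :=
  alpha2Cmp_apply (basisS S) (PT.R S hpS M hM).d (Fermat.Agent.S55lib.cmp S) ξ x

lemma AS2_bijective (hK4 : K4Statement (basisS S) p (CSfull S)) :
    Function.Bijective (AS2 S hpS M hM) := by
  have i0 := PT.finite_toInt _ (PT.R S hpS M hM).fin0
  have i1 := PT.finite_toInt _ (PT.R S hpS M hM).fin1
  have j0 := PT.free_toInt _ (PT.R S hpS M hM).free0
  have j1 := PT.free_toInt _ (PT.R S hpS M hM).free1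
  have h1 := (hK4 (PT.R S hpS M hM).P0 (PT.R S hpS M hM).P1 (PT.R S hpS M hM).sm0
    (PT.R S hpS M hM).sm1 (PT.R S hpS M hM).d (PT.R S hpS M hM).d_inj
    (PT.R_pdiv S hpS M hM)).2.1
  have h2 := ExtC_cmp_bijective' S hp.out hpS (PT.R S hpS M hM).P0 (PT.R S hpS M hM).P1
    (PT.R S hpS M hM).sm0 (PT.R S hpS M hM).sm1 (PT.R S hpS M hM).d (PT.R S hpS M hM).d_inj
    (PT.R_pdiv S hpS M hM) 2
  exact alpha2Cmp_bijective (basisS S) (PT.R S hpS M hM).d (Fermat.Agent.S55lib.cmp S) h1 h2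

/-- the global duality map `α²` -/
theorem exists_α2 (I : PT.InvData S p) (hK4 : K4Statement (basisS S) p (CSfull S)) :
    ∃ α : X2 S hpS M hM →+ (D0 M →+ ZMod p),
      Function.Bijective α ∧
      ∀ ξ x (h : p • AS2 S hpS M hM ξ x = 0),
        α ξ (θS0 S hpS M hM x) = I.ιS ⟨AS2 S hpS M hM ξ x, h⟩ := by
  obtain ⟨α, h1, h2, h3⟩ := PT.exists_dual_of_pairing' (AS2 S hpS M hM) (θS0 S hpS M hM)
    (θS0_bijective S hpS M hM) (nsmul_D0 M) I.ιS I.ιS_bij
  have hb := AS2_bijective S hpS M hM hK4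
  exact ⟨α, ⟨h1 hb.1, h2 hb.2⟩, h3⟩

/-! ### The local pairings -/

/-- the local pairing `H²(G_q, Hom(M′, ℚ̄_qˣ)) × H¹(FC (res_q R.d)) → H²(G_q, ℚ̄_qˣ)` -/
def Aq2 (q : S) := alpha2Oc (fun q : S => rloc q.1) (PT.R S hpS M hM).d (PT.R S hpS M hM).q
  (PT.hqd S hpS M hM) (fun q : S => basisLoc q.1) (fun q : S => Yloc q.1) q

lemma Aq2_apply (q : S)
    (y : (Csm (basisLoc q.1) (homRep (Rep.res (rloc q.1) (PT.N M)) (Yloc q.1))).H 2)
    (x : (FC (basisLoc q.1) (resHom (rloc q.1) (PT.R S hpS M hM).d)).H 1) :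
    Aq2 S hpS M hM q y x =
      alpha2 (basisLoc q.1) (resHom (rloc q.1) (PT.R S hpS M hM).d) (Yloc q.1)
        ((FourTerm.ocY (fun q : S => rloc q.1) (PT.R S hpS M hM).d (PT.R S hpS M hM).q
          (PT.hqd S hpS M hM) (fun q : S => basisLoc q.1) (fun q : S => Yloc q.1) q).mapH 2 y)
        x := rfl

lemma Aq2_bijective (q : S) (hK4q : K4Statement (basisLoc q.1) p (Yloc q.1)) :
    Function.Bijective (Aq2 S hpS M hM q) := by
  have f0 : @Module.Finite ℤ (Rep.res (rloc q.1) (PT.R S hpS M hM).P0) _ _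
      (Rep.res (rloc q.1) (PT.R S hpS M hM).P0).hV2 := (PT.R S hpS M hM).fin0
  have f1 : @Module.Finite ℤ (Rep.res (rloc q.1) (PT.R S hpS M hM).P1) _ _
      (Rep.res (rloc q.1) (PT.R S hpS M hM).P1).hV2 := (PT.R S hpS M hM).fin1
  have g0 : @Module.Free ℤ (Rep.res (rloc q.1) (PT.R S hpS M hM).P0) _ _
      (Rep.res (rloc q.1) (PT.R S hpS M hM).P0).hV2 := (PT.R S hpS M hM).free0
  have g1 : @Module.Free ℤ (Rep.res (rloc q.1) (PT.R S hpS M hM).P1) _ _
      (Rep.res (rloc q.1) (PT.R S hpS M hM).P1).hV2 := (PT.R S hpS M hM).free1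
  have i0 := PT.finite_toInt _ f0
  have i1 := PT.finite_toInt _ f1
  have j0 := PT.free_toInt _ g0
  have j1 := PT.free_toInt _ g1
  have h1 := (hK4q (Rep.res (rloc q.1) (PT.R S hpS M hM).P0)
    (Rep.res (rloc q.1) (PT.R S hpS M hM).P1)
    (isSm_res_basisLoc S q.1 (PT.R S hpS M hM).sm0) (isSm_res_basisLoc S q.1 (PT.R S hpS M hM).sm1)
    (resHom (rloc q.1) (PT.R S hpS M hM).d) (PT.R S hpS M hM).d_inj (PT.R_pdiv S hpS M hM)).2.1
  have h2 := FourTerm.ocY_bijective (PT.hco S) (PT.R S hpS M hM).sm0 (PT.R S hpS M hM).d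
    (PT.R S hpS M hM).q (PT.R S hpS M hM).q_surj (PT.R S hpS M hM).exact
    (fun q : S => isSm_Yloc q.1) (PT.hextY S hpS M hM) q 2
  exact alpha2Oc_bijective (PT.R S hpS M hM).d (PT.R S hpS M hM).q (PT.hqd S hpS M hM) q h1 h2

/-- the local duality maps -/
theorem exists_β2 (I : PT.InvData S p) (q : S) (hK4q : K4Statement (basisLoc q.1) p (Yloc q.1)) :
    ∃ β : (Csm (basisLoc q.1) (homRep (Rep.res (rloc q.1) (PT.N M)) (Yloc q.1))).H 2 →+
        (D0q M q.1 →+ ZMod p),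
      Function.Bijective β ∧
      ∀ y x (h : p • Aq2 S hpS M hM q y x = 0),
        β y (θq0 S hpS M hM q x) = I.ιq q ⟨Aq2 S hpS M hM q y x, h⟩ := by
  obtain ⟨β, h1, h2, h3⟩ := PT.exists_dual_of_pairing' (Aq2 S hpS M hM q) (θq0 S hpS M hM q)
    (θq0_bijective S hpS M hM q) (nsmul_D0q M q.1) (I.ιq q) (I.ιq_bij q)
  have hb := Aq2_bijective S hpS M hM q hK4q
  exact ⟨β, ⟨h1 hb.1, h2 hb.2⟩, h3⟩

end Fermat.Agent.S56lib.PT9
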