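/-
S56lib / PT9 / H2End  (helper8).

**The `H²`-end of the Poitou–Tate sequence**:
  `H²(G_S, M) --loc--> ∏_{q ∈ S} H²(G_q, M) --b--> H⁰(G_ℚ, M′)^∨ --> 0`
is exact (`exists_b`, `exists_bLin`), where `b(y)(x) = ∑_q ⟨y_q, x⟩_q` is the sum of the local duality
pairings.  Inputs: the invariant data, the global and local `K4`, and `HΦ2` (Shapiro in degree 2).
-/
import Fermat.Agent.S56lib.PT9.Pair2

set_option autoImplicit false
set_option linter.unusedSectionVars false

noncomputable section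

namespace Fermat.Agent.S56lib.PT9

open Fermat.Agent.S55lib Fermat.Agent.S55lib.Cpx Fermat.Agent.S55lib.CFDual
  groupCohomology ExtCitation CategoryTheory

variable (S : Finset Nat.Primes) {p : ℕ} [hp : Fact p.Prime]
  (hpS : (⟨p, hp.out⟩ : Nat.Primes) ∈ S)
  (M : Rep.{0} (ZMod p) GQ) [FiniteDimensional (ZMod p) M]
  (hM : Sm.IsSmooth (MonoidHom.id GQ) (LevelClass.unr S) M)

include hpS hM in
/-- the sum `b` of the local pairings, the global pairing `α²`, and their compatibility through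
`a²` -/
theorem exists_αb (I : PT.InvData S p) (hK4 : K4Statement (basisS S) p (CSfull S))
    (hK4q : ∀ q : S, K4Statement (basisLoc q.1) p (Yloc q.1)) (hΦ : HΦ2 S hpS M hM) :
    ∃ (α : X2 S hpS M hM →+ (D0 M →+ ZMod p)) (b : H2locAll S M →+ (D0 M →+ ZMod p)),
      Function.Bijective α ∧ Function.Surjective b ∧
        ∀ y, α (a2glob S hpS M hM hΦ y) = b y := by
  classical
  obtain ⟨α, hαb, hα⟩ := exists_α2 S hpS M hM I hK4
  choose β hβb hβ using fun q : S => exists_β2 S hpS M hM I q (hK4q q)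
  let b : H2locAll S M →+ (D0 M →+ ZMod p) :=
    { toFun := fun y => ∑ q : S, (β q (e2 S hpS M hM q (y q))).comp
        (inclq M q.1).toAddMonoidHom
      map_zero' := by
        apply Finset.sum_eq_zero
        intro q _
        have h0 : (0 : H2locAll S M) q = 0 := rfl
        rw [h0, map_zero, map_zero, AddMonoidHom.zero_comp]
      map_add' := fun y y' => by
        rw [← Finset.sum_add_distrib]
        apply Finset.sum_congr rfl
        intro q _
        have h0 : (y + y') q = y q + y' q := rfl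
        rw [h0, map_add, map_add, AddMonoidHom.add_comp] }
  have hb : ∀ y x, b y x = ∑ q : S, β q (e2 S hpS M hM q (y q)) (inclq M q.1 x) := fun y x => by
    show (∑ q : S, (β q (e2 S hpS M hM q (y q))).comp (inclq M q.1).toAddMonoidHom) x = _
    rw [AddMonoidHom.finsetSum_apply]
    rfl
  -- compatibility
  have hcompat : ∀ y x', α (a2glob S hpS M hM hΦ y) x' = b y x' := by
    intro y x'
    obtain ⟨x, rfl⟩ := (θS0_bijective S hpS M hM).2 x'
    have hx : p • x = 0 := by
      apply (θS0_bijective S hpS M hM).1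
      rw [map_nsmul, nsmul_D0, map_zero]
    obtain ⟨z, hz1, hz2, hz3⟩ := alpha2_a2Fun (jsCoind S) (PT.hco S) (pCS S)
      (PT.R S hpS M hM).sm0 (PT.R S hpS M hM).sm1 (PT.R S hpS M hM).d (PT.R S hpS M hM).q
      (PT.hqd S hpS M hM) (fun q => h90_hom S q.1 (PT.R S hpS M hM)) hΦ
      (fun q => e2 S hpS M hM q (y q)) x
    have hz : p • z = 0 := hz3 p hx
    have ha : a2glob S hpS M hM hΦ y = a2Fun (jsCoind S) (PT.hco S) (pCS S)
        (PT.R S hpS M hM).sm0 (PT.R S hpS M hM).sm1 (PT.R S hpS M hM).d (PT.R S hpS M hM).q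
        (PT.hqd S hpS M hM) (fun q => h90_hom S q.1 (PT.R S hpS M hM)) hΦ
        (fun q => e2 S hpS M hM q (y q)) := rfl
    have e1' : AS2 S hpS M hM (a2glob S hpS M hM hΦ y) x =
        (Csm.map (basisS S) (PT.πJ S)).mapH 2 z := by
      rw [AS2_apply, ha, hz1, PT.map_comp_mapH]
      rfl
    have hAS : p • AS2 S hpS M hM (a2glob S hpS M hM hΦ y) x = 0 := by
      rw [← map_nsmul, hx, map_zero]
    have h1 : (Csm.map (basisS S) (PT.πJ S)).mapH 2 z ∈
        PT.pTor p (Hsm (basisS S) (CSfull S) 2) := by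
      rw [PT.mem_pTor, ← map_nsmul, hz, map_zero]
    have h2 : ∀ q : S, (PT.locJ S q).mapH 2 z ∈ PT.pTor p (Hsm (basisLoc q.1) (Yloc q.1) 2) :=
      fun q => by rw [PT.mem_pTor, ← map_nsmul, hz, map_zero]
    rw [hα _ _ hAS, hb]
    have e2' : (⟨AS2 S hpS M hM (a2glob S hpS M hM hΦ y) x, hAS⟩ :
        PT.pTor p (Hsm (basisS S) (CSfull S) 2)) = ⟨_, h1⟩ := Subtype.ext e1'
    rw [e2', I.sum z hz h1 h2]
    apply Finset.sum_congr rfl
    intro q _
    have e3 : Aq2 S hpS M hM q (e2 S hpS M hM q (y q))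
        ((FourTerm.resFC (PT.hco S) (PT.R S hpS M hM).d q).mapH 1 x) = (PT.locJ S q).mapH 2 z :=
      (hz2 q).symm
    have hAq : p • Aq2 S hpS M hM q (e2 S hpS M hM q (y q))
        ((FourTerm.resFC (PT.hco S) (PT.R S hpS M hM).d q).mapH 1 x) = 0 := by
      rw [e3]
      exact h2 q
    rw [← θq0_resFC, hβ q _ _ hAq]
    congr 1
    exact Subtype.ext e3.symm
  refine ⟨α, b, hαb, ?_, fun y => AddMonoidHom.ext fun x => hcompat y x⟩
  · -- surjectivity of `b`
    intro f
    let q₀ : S := ⟨⟨p, hp.out⟩, hpS⟩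
    obtain ⟨g, hg⟩ := LinearMap.exists_leftInverse_of_injective (inclq M q₀.1)
      (LinearMap.ker_eq_bot.2 (inclq_injective M q₀.1))
    let f' : D0q M q₀.1 →+ ZMod p := f.comp g.toAddMonoidHom
    have hf' : ∀ x, f' (inclq M q₀.1 x) = f x := fun x => by
      show f (g (inclq M q₀.1 x)) = f x
      have := LinearMap.congr_fun hg x
      rw [LinearMap.comp_apply, LinearMap.id_apply] at this
      rw [this]
    obtain ⟨y1, hy1⟩ := (hβb q₀).2 f'
    obtain ⟨y0, hy0⟩ := (e2_bijective S hpS M hM q₀).2 y1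
    let y : H2locAll S M := Function.update (fun _ => 0) q₀ y0
    have hyq₀ : y q₀ = y0 := Function.update_self ..
    have hyq : ∀ q : S, q ≠ q₀ → y q = 0 := fun q hq => Function.update_of_ne hq ..
    refine ⟨y, ?_⟩
    ext x
    rw [hb, Finset.sum_eq_single q₀]
    · rw [hyq₀, hy0, hy1, hf']
    · intro q _ hq
      rw [hyq q hq, map_zero, map_zero, AddMonoidHom.zero_apply]
    · intro h
      exact absurd (Finset.mem_univ _) h

include hpS hM in
/-- **`a² : ∏_{q ∈ S} H²(G_q, M) → Ext²(M′, C_S)` is surjective** -/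
theorem a2glob_surjective (I : PT.InvData S p) (hK4 : K4Statement (basisS S) p (CSfull S))
    (hK4q : ∀ q : S, K4Statement (basisLoc q.1) p (Yloc q.1)) (hΦ : HΦ2 S hpS M hM) :
    Function.Surjective (a2glob S hpS M hM hΦ) := by
  obtain ⟨α, b, hα, hb, hc⟩ := exists_αb S hpS M hM I hK4 hK4q hΦ
  intro ξ
  obtain ⟨y, hy⟩ := hb (α ξ)
  exact ⟨y, hα.1 ((hc y).trans hy)⟩

include hpS hM in
/-- **The `H²`-end of Poitou–Tate, additive form.** -/
theorem exists_b (I : PT.InvData S p) (hK4 : K4Statement (basisS S) p (CSfull S))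
    (hK4q : ∀ q : S, K4Statement (basisLoc q.1) p (Yloc q.1)) (hΦ : HΦ2 S hpS M hM) :
    ∃ b : H2locAll S M →+ (D0 M →+ ZMod p), Function.Surjective b ∧
      ∀ y, b y = 0 ↔ ∃ x : H2S S M, locAll2 S M x = y := by
  obtain ⟨α, b, hα, hb, hc⟩ := exists_αb S hpS M hM I hK4 hK4q hΦ
  refine ⟨b, hb, fun y => ?_⟩
  rw [← exact_P2_glob S hpS M hM hΦ y, ← hc y]
  constructor
  · intro h
    apply hα.1
    rw [map_zero]
    exact h
  · intro h
    rw [h, map_zero]

include hpS hM in
/-- **The `H²`-end of Poitou–Tate, `𝔽_p`-linear form.** -/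
theorem exists_bLin (I : PT.InvData S p) (hK4 : K4Statement (basisS S) p (CSfull S))
    (hK4q : ∀ q : S, K4Statement (basisLoc q.1) p (Yloc q.1)) (hΦ : HΦ2 S hpS M hM) :
    ∃ b : H2locAll S M →ₗ[ZMod p] Module.Dual (ZMod p) (D0 M), Function.Surjective b ∧
      LinearMap.range (locAll2 S M) = LinearMap.ker b := by
  obtain ⟨b, hbs, hbe⟩ := exists_b S hpS M hM I hK4 hK4q hΦ
  let b1 : H2locAll S M →ₗ[ZMod p] Module.Dual (ZMod p) (D0 M) :=
    AddMonoidHom.toZModLinearMap p
      ({ toFun := fun y => (b y).toZModLinearMap p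
         map_zero' := by ext; simp
         map_add' := fun y y' => by ext; simp } :
        H2locAll S M →+ (D0 M →ₗ[ZMod p] ZMod p))
  have hb1 : ∀ y x, b1 y x = b y x := fun _ _ => rfl
  refine ⟨b1, ?_, ?_⟩
  · intro f
    obtain ⟨y, hy⟩ := hbs f.toAddMonoidHom
    refine ⟨y, ?_⟩
    ext x
    rw [hb1, hy]
    rfl
  · ext y
    rw [LinearMap.mem_range, LinearMap.mem_ker]
    constructor
    · rintro ⟨x, rfl⟩
      ext z
      rw [hb1, (hbe _).2 ⟨x, rfl⟩]
      rfl
    · intro h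
      apply (hbe y).1
      ext z
      rw [← hb1, h]
      rfl

end Fermat.Agent.S56lib.PT9
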