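/-
S56lib / PT9 / H2EndFinal  (helper8).

The `H²`-end of Poitou–Tate with all class-field-theoretic inputs discharged by the S55 library
(global `K4`, (T), (III): `Dev/GlobalCF`, `Recip/FundClassStmt`, `GlobDual/HIII`; local `K4`:
`LocalH`).  The only remaining hypothesis is `HΦ2` (Shapiro in degree 2 for `Ext²(R, J_S)`).
-/
import Fermat.Agent.S56lib.PT9.H2End
import Fermat.Agent.S55lib.GlobDual.K12Final
import Fermat.Agent.S55lib.GlobDual.HIII
import Fermat.Agent.S55lib.Dev.GlobalCF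
import Fermat.Agent.S55lib.Recip.FundClassStmt

set_option autoImplicit false

noncomputable section

namespace Fermat.Agent.S56lib.PT9

open Fermat.Agent.S55lib Fermat.Agent.S55lib.Cpx Fermat.Agent.S55lib.CFDual
  groupCohomology ExtCitation CategoryTheory

/-- **The `H²`-end of the Poitou–Tate sequence** (`p` odd, `S ∋ p`, `M` a finite `𝔽_p[G_ℚ]`-module
unramified outside `S`): there is a surjective `𝔽_p`-linear map
`b : ∏_{q ∈ S} H²(G_q, M) → H⁰(G_ℚ, M^∨(1))^∨` whose kernel is the image of `H²(G_S, M)`. -/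
theorem h2End {p : ℕ} [hp : Fact p.Prime] (hp2 : p ≠ 2) (S : Finset Nat.Primes)
    (hpS : (⟨p, hp.out⟩ : Nat.Primes) ∈ S)
    (M : Rep.{0} (ZMod p) GQ) [FiniteDimensional (ZMod p) M]
    (hM : Sm.IsSmooth (MonoidHom.id GQ) (LevelClass.unr S) M) (hΦ : HΦ2 S hpS M hM) :
    ∃ b : H2locAll S M →ₗ[ZMod p] Module.Dual (ZMod p) (D0 M), Function.Surjective b ∧
      LinearMap.range (locAll2 S M) = LinearMap.ker b := by
  have hT := Dev.card_torsion_le_top hp2 hpS
    (Dev.topClassStatement_of_fundClass (Recip.fundClassStatement hp2) ⟨_, hpS⟩)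
  have hIII := PT.hIII hp2 S hpS
  have hK4 := Dev.k4_global_of_fundClass hp2 hpS (Recip.fundClassStatement hp2)
  obtain ⟨I⟩ := PT.nonempty_invData S hT (fun q => PT.exists_ne_zero_loc q.1 p) hIII ⟨_, hpS⟩
  exact exists_bLin S hpS M hM I hK4 (fun q => LocalH.k4Statement_loc q.1 p) hΦ

end Fermat.Agent.S56lib.PT9
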