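/-
S56 marathon, flat local condition at `p`, irreducible case (helper8): **(I-mid)**.
For a tame set-up `TameSetup K L ζ τ φ n N` and an irreducible `r : Γ →* M₂(k)` with split characteristic
polynomials, trivial on `Γ_K`: in a suitable basis `r τ = diag(α, β)` with `α ≠ β`, `r φ` is antidiagonal, and
`β = α ^ p`, `α = β ^ p` (`Flat.exists_diag_antidiag`).  Input: helper2's `TW.irr_alg`, helper7's `inertiaK`.
-/
import Mathlib
import Fermat.Agent.S56lib.Flat.Setup
import Fermat.Agent.S56lib.TW.IrrAlg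
import Fermat.Agent.S56lib.PT9a.TameStruct

set_option autoImplicit false
set_option linter.unusedSectionVars false
set_option linter.style.haveILetI false

open scoped NormedField Valued NNReal

noncomputable section

namespace Fermat.Agent.S56lib.Flat

open Fermat.Agent.S56lib.Kum Fermat.Agent.S55lib Fermat.Agent.S55lib.LocalUnr IsUltrametricDist
  Polynomial Matrix

section ConjM

variable {G : Type*} [Group G] {k : Type*} [Field k]

/-- the conjugate `g ↦ P r(g) P⁻¹` of a matrix representation -/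
def conjRep (P : Matrix (Fin 2) (Fin 2) k) (hP : IsUnit P) (r : G →* Matrix (Fin 2) (Fin 2) k) :
    G →* Matrix (Fin 2) (Fin 2) k where
  toFun g := P * r g * P⁻¹
  map_one' := by
    rw [map_one, Matrix.mul_one, Matrix.mul_nonsing_inv P ((Matrix.isUnit_iff_isUnit_det P).1 hP)]
  map_mul' g h := by
    have hQP : P⁻¹ * P = 1 := Matrix.nonsing_inv_mul P ((Matrix.isUnit_iff_isUnit_det P).1 hP)
    rw [map_mul]
    calc P * (r g * r h) * P⁻¹ = P * r g * (1 : Matrix (Fin 2) (Fin 2) k) * r h * P⁻¹ := by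
          rw [Matrix.mul_one]; simp only [Matrix.mul_assoc]
      _ = P * r g * P⁻¹ * (P * r h * P⁻¹) := by rw [← hQP]; simp only [Matrix.mul_assoc]

@[simp] lemma conjRep_apply (P : Matrix (Fin 2) (Fin 2) k) (hP : IsUnit P)
    (r : G →* Matrix (Fin 2) (Fin 2) k) (g : G) : conjRep P hP r g = P * r g * P⁻¹ := rfl

end ConjM

variable {p : ℕ} [hp : Fact p.Prime] {k : Type*} [Field k] [Finite k] [CharP k p]
  {K L : IntermediateField ℚ_[p] (PadicAlgCl p)} [FiniteDimensional ℚ_[p] K] [Normal ℚ_[p] K]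
  [FiniteDimensional ℚ_[p] L] {ζ : PadicAlgCl p}
  {τ φ : PadicAlgCl p ≃ₐ[ℚ_[p]] PadicAlgCl p} {n N : ℕ}

/-- **(I-mid)**: the shape of an irreducible `r` on a tame set-up -/
theorem exists_diag_antidiag (hp2 : p ≠ 2) (S : TameSetup K L ζ τ φ n N)
    (r : (PadicAlgCl p ≃ₐ[ℚ_[p]] PadicAlgCl p) →* Matrix (Fin 2) (Fin 2) k)
    (hsplit : ∀ g, ∃ α β : k, (r g).charpoly = (X - C α) * (X - C β))
    (hirr : ∀ v : Fin 2 → k, v ≠ 0 → ∃ g, ∀ c : k, r g *ᵥ v ≠ c • v)
    (hrK : ∀ g ∈ K.fixingSubgroup, r g = 1) :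
    ∃ (P : Matrix (Fin 2) (Fin 2) k) (α β b c : k), IsUnit P ∧ α ≠ β ∧
      P * r τ * P⁻¹ = Matrix.diagonal ![α, β] ∧ P * r φ * P⁻¹ = !![0, b; c, 0] ∧
      β = α ^ p ∧ α = β ^ p := by
  haveI : (K.fixingSubgroup).Normal := normal_fixingSubgroup
  have hWI : K.fixingSubgroup ≤ PT9a.inertiaK K :=
    (PT9a.fixingSubgroup_le_wildK K).trans (PT9a.wildK_le_inertiaK K)
  obtain ⟨-, P, hP, α, β, hαβ, hτD, -, h00, h11, -⟩ :=
    TW.irr_alg p hp2 r hsplit hirr K.fixingSubgroup (PT9a.inertiaK K) hWI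
      (fun w hw => ⟨0, by rw [hrK w hw, one_pow]⟩) τ φ S.hτ.res
      ⟨Module.finrank ℚ_[p] K, S.hdeg, PT9a.pow_finrank_mem_fixingSubgroup K τ⟩
      (fun g hg => S.hgenτ g hg) (fun g => S.hgenφ g)
  set r' := conjRep P hP r with hr'
  -- the relation `r'(φ) r'(τ) = r'(τ)^p r'(φ)`
  have hrel : r' φ * r' τ = r' τ ^ p * r' φ := by
    have e : φ * τ = (φ * τ * φ⁻¹ * (τ ^ p)⁻¹) * τ ^ p * φ := by group
    have h1 : r' (φ * τ * φ⁻¹ * (τ ^ p)⁻¹) = 1 := by
      rw [hr', conjRep_apply, hrK _ S.hcomm, Matrix.mul_one,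
        Matrix.mul_nonsing_inv P ((Matrix.isUnit_iff_isUnit_det P).1 hP)]
    rw [← map_mul, e, map_mul, map_mul, h1, one_mul, map_pow]
  have hτ' : r' τ = Matrix.diagonal ![α, β] := hτD
  set A := r' φ with hA
  have hA00 : A 0 0 = 0 := h00
  have hA11 : A 1 1 = 0 := h11
  -- `A` is invertible
  have hAinv : A * r' φ⁻¹ = 1 := by rw [hA, ← map_mul, mul_inv_cancel, map_one]
  have hdet : A.det ≠ 0 := by
    intro h0
    have := congrArg Matrix.det hAinv
    rw [Matrix.det_mul, h0, zero_mul, Matrix.det_one] at this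
    exact zero_ne_one this
  have hbc : A 0 1 * A 1 0 ≠ 0 := by
    rw [Matrix.det_fin_two, hA00, hA11, zero_mul, zero_sub, neg_ne_zero] at hdet
    exact hdet
  have hb : A 0 1 ≠ 0 := left_ne_zero_of_mul hbc
  have hc : A 1 0 ≠ 0 := right_ne_zero_of_mul hbc
  -- compare the entries
  rw [hτ', Matrix.diagonal_pow] at hrel
  have e01 := congrFun (congrFun hrel 0) 1
  have e10 := congrFun (congrFun hrel 1) 0
  rw [Matrix.mul_apply, Matrix.mul_apply, Fin.sum_univ_two, Fin.sum_univ_two] at e01 e10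
  simp only [Matrix.diagonal_apply_eq, Matrix.diagonal_apply_ne, ne_eq, Fin.isValue,
    zero_ne_one, one_ne_zero, not_false_eq_true, Pi.pow_apply, Matrix.cons_val_zero,
    Matrix.cons_val_one, mul_zero, zero_mul, add_zero, zero_add] at e01 e10
  refine ⟨P, α, β, A 0 1, A 1 0, hP, hαβ, hτD, ?_, ?_, ?_⟩
  · show A = !![0, A 0 1; A 1 0, 0]
    ext i j
    fin_cases i <;> fin_cases j
    · exact hA00
    · rfl
    · rfl
    · exact hA11
  · -- `b β = α^p b`
    have : A 0 1 * β = A 0 1 * α ^ p := by rw [e01, mul_comm]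
    exact mul_left_cancel₀ hb this
  · have : A 1 0 * α = A 1 0 * β ^ p := by rw [e10, mul_comm]
    exact mul_left_cancel₀ hc this

end Fermat.Agent.S56lib.Flat
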