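/-
S56lib / PT9 / Ext3Gen  (helper8).

**`Ext³(d, C) = 0` from two properties of the formation only.**  The `Ext³`-part of the duality
theorem `K4` (`CFDual/Main`) uses much less than the full class formation data `CFData`: for the
open subgroups `V ≤ U₀` (`U₀` open of index prime to `p`) only
  (a) the `p`-primary part of `H²(V, C)` is `p`-divisible,
  (b) `H³(V, C)` has no `p`-torsion.
This applies to formations which are not class formations in the sense of `CFData`, e.g. the local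
formation `(G_q, (ℚ_S)_qˣ)` for the topology induced from `G_S`.
-/
import Fermat.Agent.S55lib.CFDual.Main
import Fermat.Agent.S56lib.PT9a.Shapiro2S

set_option autoImplicit false
set_option linter.unusedSectionVars false
set_option linter.style.haveILetI false

noncomputable section

namespace Fermat.Agent.S56lib.PT9

open Fermat.Agent.S55lib Fermat.Agent.S55lib.Csm Fermat.Agent.S55lib.Cpx
  Fermat.Agent.S55lib.CFDual CategoryTheory

variable {G : Type} [Group G] (𝒰 : OpenBasis G) (p : ℕ) [Fact p.Prime] {C : Rep.{0} ℤ G}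

/-- the two properties of `(V, C|_V)` used by the base case -/
structure Base3 (C : Rep.{0} ℤ G) (V : Subgroup G) : Prop where
  /-- the `p`-primary part of `H²(V, C)` is `p`-divisible -/
  div2 : ∀ y : Hsm (𝒰.comap V.subtype) (Rep.res V.subtype C) 2, (∃ m : ℕ, p ^ m • y = 0) →
    ∃ y' : Hsm (𝒰.comap V.subtype) (Rep.res V.subtype C) 2, p • y' = y
  /-- `H³(V, C)` has no `p`-torsion -/
  tf3 : ∀ x : Hsm (𝒰.comap V.subtype) (Rep.res V.subtype C) 3, p • x = 0 → x = 0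

variable {𝒰 p}

/-- the base case: `Ext³(ℤ[G/V] →p ℤ[G/V], C) = 0` -/
theorem ext3_std_of_base3 (hC : IsSm 𝒰 C) {V : Subgroup G} (hV : 𝒰.IsOpen V) [Fintype (G ⧸ V)]
    (hB : Base3 𝒰 p C V) (x : ExtH 𝒰 (stdPair p V) C 3) : x = 0 := by
  let SJ : SmCoind 𝒰 (fun _ : PUnit.{1} => ↥V) (fun _ => V.subtype)
      (fun _ => Rep.res V.subtype C) (homRep (cTriv (k := ℤ) V) C) :=
    dualSmCoind 𝒰 C hC (isSm_cTriv hV ℤ)
  have hF : ∀ (n : ℕ) (w : Hsm 𝒰 (homRep (cTriv (k := ℤ) V) C) n),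
      (Csm.map 𝒰 (homRep.mapL (stdPair p V) C)).mapH n w = p • w := fun n w =>
    Csm_mapH_eq_nsmul 𝒰 _ p (fun φ => mapL_eq_nsmul _ p (fun _ => rfl) φ) n w
  refine fibP_H_succ_eq_zero _ p hF 2 (fun w => ?_) (fun w hw => ?_) x
  · -- `H²(G, J)` is `p`-divisible
    obtain ⟨n, hn, hnw⟩ := Hsm_two_torsion 𝒰 _ w
    refine pdiv_of_torsion p (fun w' hw' => ?_) w n hn.ne' hnw
    obtain ⟨m, hm⟩ := hw'
    obtain ⟨y', hy'⟩ := hB.div2 ((SJ.sh PUnit.unit).mapH 2 w') ⟨m, by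
      rw [← map_nsmul, hm, map_zero]⟩
    obtain ⟨y, hy⟩ := SJ.sh_H2_surjective (fun _ => y')
    refine ⟨y, ?_⟩
    have : p • y - w' = 0 := SJ.sh_H2_injective _ (fun i => by
      rw [map_sub, map_nsmul, hy i, hy']
      exact sub_self _)
    exact sub_eq_zero.1 this
  · -- `H³(G, J)` has no `p`-torsion
    exact SJ.sh_H3_injective w (fun _ => hB.tf3 _ (by rw [← map_nsmul, hw, map_zero]))

section main

variable {U₀ : Subgroup G} (hC : IsSm 𝒰 C)
  (hbase : ∀ V : Subgroup G, 𝒰.IsOpen V → V ≤ U₀ → Base3 𝒰 p C V)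
  (hcop : Nat.Coprime U₀.index p) {U : Subgroup G} (hU : U ∈ 𝒰.sets) (hUU₀ : U ≤ U₀)

include hC hbase hcop hU hUU₀ in
/-- **`Ext³ = 0`** on the class of pairs with trivial `U`-action -/
theorem ext3_of_inClass_of_base3 {P0 P1 : Rep.{0} ℤ G} {d : P1 ⟶ P0} (h : InClass p U d)
    (x : ExtH 𝒰 d C 3) : x = 0 := by
  haveI : U.Normal := 𝒰.normal U hU
  haveI : U.FiniteIndex := 𝒰.finiteIndex U hU
  obtain ⟨P, hUP, hPU₀, ⟨a, ha⟩, hcopP⟩ := exists_sylow_preimage p U U₀ hUU₀ hcop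
  haveI : P.FiniteIndex := Subgroup.finiteIndex_of_le hUP
  haveI : Finite (G ⧸ P) := Subgroup.finite_quotient_of_finiteIndex
  haveI : Fintype (G ⧸ P) := Fintype.ofFinite _
  have hPopen : 𝒰.IsOpen P := ⟨U, hU, hUP⟩
  have hE : ∀ y : ExtH 𝒰 (uPair P d) C 3, y = 0 :=
    ext3_coind 𝒰 p P hU hUP a ha hC
      (fun y => ext3_std_of_base3 hC hPopen (hbase P hPopen hPU₀) y) _
      (Rep.resMap P.subtype d) (h.ppair P) rfl
  let i : PairHom d (uPair P d) := ⟨cRep.unit P P0, cRep.unit P P1, uPair_unit P d⟩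
  let s : PairHom (uPair P d) d := ⟨cRep.tr P P0, cRep.tr P P1, fun f =>
    (cRep.tr_natural P d f).symm⟩
  exact ext3_of_retract 𝒰 C i s P.index p hcopP (fun y => cRep.tr_unit P P0 y)
    (fun y => cRep.tr_unit P P1 y) (p_smul_ext_eq_zero 𝒰 d h.inj p h.div C 3) hE x

end main

/-- **`Ext³(d, C) = 0` for every pair of smooth lattices** with `d` injective and `p P₀ ⊆ d P₁`. -/
theorem ext3_eq_zero_of_base3 {U₀ : Subgroup G} (hC : IsSm 𝒰 C) (hU₀ : 𝒰.IsOpen U₀)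
    (hcop : Nat.Coprime U₀.index p)
    (hbase : ∀ V : Subgroup G, 𝒰.IsOpen V → V ≤ U₀ → Base3 𝒰 p C V)
    (P0 P1 : Rep.{0} ℤ G) [i0 : Module.Finite ℤ P0] [i1 : Module.Free ℤ P0]
    [i2 : Module.Finite ℤ P1] [i3 : Module.Free ℤ P1] (hsm0 : IsSm 𝒰 P0) (hsm1 : IsSm 𝒰 P1)
    (d : P1 ⟶ P0) (hinj : Function.Injective d.hom) (hdiv : ∀ x : P0, ∃ y : P1, d.hom y = p • x)
    (x : ExtH 𝒰 d C 3) : x = 0 := by
  have e0 : P0.hV2 = AddCommGroup.toIntModule P0 := Subsingleton.elim _ _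
  have e1 : P1.hV2 = AddCommGroup.toIntModule P1 := Subsingleton.elim _ _
  have j0 : @Module.Finite ℤ P0 _ _ P0.hV2 := by rw [e0]; exact i0
  have j1 : @Module.Free ℤ P0 _ _ P0.hV2 := by rw [e0]; exact i1
  have j2 : @Module.Finite ℤ P1 _ _ P1.hV2 := by rw [e1]; exact i2
  have j3 : @Module.Free ℤ P1 _ _ P1.hV2 := by rw [e1]; exact i3
  obtain ⟨W₀, hW₀, hW₀U⟩ := hU₀
  obtain ⟨W₁, hW₁, ht0⟩ := @exists_triv_of_finite ℤ G _ _ 𝒰 P0 j0 hsm0
  obtain ⟨W₂, hW₂, ht1⟩ := @exists_triv_of_finite ℤ G _ _ 𝒰 P1 j2 hsm1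
  obtain ⟨W₃, hW₃, hle₃⟩ := 𝒰.directed W₀ hW₀ W₁ hW₁
  obtain ⟨U, hU, hle⟩ := 𝒰.directed W₃ hW₃ W₂ hW₂
  have hUW₀ : U ≤ W₀ := (hle.trans inf_le_left).trans (hle₃.trans inf_le_left)
  have hUW₁ : U ≤ W₁ := (hle.trans inf_le_left).trans (hle₃.trans inf_le_right)
  have hUW₂ : U ≤ W₂ := hle.trans inf_le_right
  have h : InClass p U d :=
    ⟨j0, j1, j2, j3, fun s hs b => ht0 s (hUW₁ hs) b, fun s hs b => ht1 s (hUW₂ hs) b, hinj,
      hdiv⟩
  exact ext3_of_inClass_of_base3 hC hbase hcop hU (hUW₀.trans hW₀U) h x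

end Fermat.Agent.S56lib.PT9
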