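/-
S56lib / PT9 / SmPart  (helper8).

The smooth part `A^sm` of a representation for a basis `𝒰` (the vectors fixed by some `U ∈ 𝒰`), and the
fact that smooth cochains do not see the difference: `Csm 𝒰 A^sm → Csm 𝒰 A` is degreewise bijective, and
so are `Csm 𝒰 Hom(P, A^sm) → Csm 𝒰 Hom(P, A)` (`P` smooth) and the restrictions to open subgroups.
Hence `Ext(d, A^sm) → Ext(d, A)` is surjective on cohomology.
-/
import Fermat.Agent.S55lib.Cpx.HomRep
import Fermat.Agent.S55lib.Cpx.Shapiro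
import Fermat.Agent.S55lib.Iface.ExtCompare

set_option autoImplicit false
set_option linter.unusedSectionVars false

noncomputable section

namespace Fermat.Agent.S56lib.PT9

universe u

open Fermat.Agent.S55lib Fermat.Agent.S55lib.Cpx CategoryTheory

variable {k G : Type u} [CommRing k] [Group G] (𝒰 : OpenBasis G)

/-- a morphism of representations which is injective and hits every vector fixed by some `U ∈ 𝒰` is
degreewise bijective on smooth cochains -/
theorem Csm_map_bijective_of_fixed {A B : Rep.{u} k G} (φ : A ⟶ B)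
    (hinj : Function.Injective φ.hom)
    (hsurj : ∀ b : B, (∃ U ∈ 𝒰.sets, ∀ s ∈ U, B.ρ s b = b) → ∃ a : A, φ.hom a = b) (n : ℕ) :
    Function.Bijective ((Csm.map 𝒰 φ).f n) := by
  constructor
  · intro x y hxy
    apply Subtype.ext
    funext g
    apply hinj
    exact congrFun (congrArg Subtype.val hxy) g
  · intro z
    obtain ⟨U, hU, h1, h2⟩ := z.2
    choose w hw using fun g => hsurj (z.1 g) ⟨U, hU, h2 g⟩
    refine ⟨⟨w, U, hU, fun g s hs => ?_, fun g s hs => ?_⟩, ?_⟩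
    · apply hinj
      rw [hw, hw, h1 g s hs]
    · apply hinj
      rw [Rep.hom_comm_apply, hw]
      exact h2 g s hs
    · apply Subtype.ext
      funext g
      exact hw g

/-- the submodule of smooth vectors -/
def smSub (A : Rep.{u} k G) : Submodule k A where
  carrier := {a | ∃ U ∈ 𝒰.sets, ∀ s ∈ U, A.ρ s a = a}
  add_mem' := by
    rintro a b ⟨U, hU, ha⟩ ⟨U', hU', hb⟩
    obtain ⟨W, hW, hle⟩ := 𝒰.directed U hU U' hU'
    refine ⟨W, hW, fun s hs => ?_⟩
    rw [map_add, ha s ((hle.trans inf_le_left) hs), hb s ((hle.trans inf_le_right) hs)]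
  zero_mem' := by
    obtain ⟨U, hU⟩ := 𝒰.nonempty
    exact ⟨U, hU, fun s _ => map_zero _⟩
  smul_mem' := by
    rintro c a ⟨U, hU, ha⟩
    exact ⟨U, hU, fun s hs => by rw [map_smul, ha s hs]⟩

lemma mem_smSub {A : Rep.{u} k G} {a : A} :
    a ∈ smSub 𝒰 A ↔ ∃ U ∈ 𝒰.sets, ∀ s ∈ U, A.ρ s a = a := Iff.rfl

/-- the smooth part of a representation -/
abbrev smPart (A : Rep.{u} k G) : Rep.{u} k G :=
  Rep.of (A.ρ.subrepresentation (smSub 𝒰 A) (by
    intro g a ha
    obtain ⟨U, hU, h⟩ := ha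
    rw [Submodule.mem_comap]
    refine ⟨U, hU, fun s hs => ?_⟩
    have hc : g⁻¹ * s * g ∈ U := by
      have := (𝒰.normal U hU).conj_mem s hs g⁻¹
      rwa [inv_inv] at this
    have e : s * g = g * (g⁻¹ * s * g) := by group
    show A.ρ s (A.ρ g a) = A.ρ g a
    rw [← Module.End.mul_apply, ← map_mul, e, map_mul, Module.End.mul_apply, h _ hc]))

namespace smPart

variable (A : Rep.{u} k G)

/-- the inclusion of the smooth part -/
def incl : smPart 𝒰 A ⟶ A :=
  Rep.ofHom { toLinearMap := (smSub 𝒰 A).subtype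
              isIntertwining' := fun _ => rfl }

lemma incl_injective : Function.Injective (incl 𝒰 A).hom := fun _ _ h => Subtype.ext h

lemma exists_incl_eq (a : A) (h : ∃ U ∈ 𝒰.sets, ∀ s ∈ U, A.ρ s a = a) :
    ∃ x : smPart 𝒰 A, (incl 𝒰 A).hom x = a := ⟨⟨a, h⟩, rfl⟩

lemma isSm : IsSm 𝒰 (smPart 𝒰 A) := by
  intro x
  obtain ⟨U, hU, h⟩ := x.2
  exact ⟨U, hU, fun s hs => Subtype.ext (h s hs)⟩

/-- smooth cochains with values in `A` take values in the smooth part -/
theorem map_incl_bijective (n : ℕ) : Function.Bijective ((Csm.map 𝒰 (incl 𝒰 A)).f n) :=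
  Csm_map_bijective_of_fixed 𝒰 _ (incl_injective 𝒰 A) (exists_incl_eq 𝒰 A) n

/-- the same with coefficients `Hom(P, −)`, `P` smooth -/
theorem map_homIncl_bijective {P : Rep.{u} k G} (hP : IsSm 𝒰 P) (n : ℕ) :
    Function.Bijective ((Csm.map 𝒰 (homRep.mapR P (incl 𝒰 A))).f n) := by
  refine Csm_map_bijective_of_fixed 𝒰 _ ?_ ?_ n
  · intro φ ψ h
    apply LinearMap.ext
    intro x
    apply incl_injective 𝒰 A
    exact congrArg (fun θ : P →ₗ[k] A => θ x) h
  · rintro (φ : P →ₗ[k] A) ⟨U, hU, hφ⟩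
    have hval : ∀ x : P, φ x ∈ smSub 𝒰 A := fun x => by
      obtain ⟨U', hU', hx⟩ := hP x
      obtain ⟨W, hW, hle⟩ := 𝒰.directed U hU U' hU'
      refine ⟨W, hW, fun s hs => ?_⟩
      have h1 := (homRep.ρ_eq_self_iff P A s φ).1 (hφ s ((hle.trans inf_le_left) hs)) x
      rw [← h1, hx s ((hle.trans inf_le_right) hs)]
    refine ⟨(LinearMap.codRestrict (smSub 𝒰 A) φ hval : P →ₗ[k] smPart 𝒰 A), ?_⟩
    apply LinearMap.ext
    intro x
    rfl

/-- restricted to an open subgroup -/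
theorem map_resIncl_bijective {V : Subgroup G} (hV : 𝒰.IsOpen V) (n : ℕ) :
    Function.Bijective ((Csm.map (𝒰.comap V.subtype)
      ((Rep.resFunctor V.subtype).map (incl 𝒰 A))).f n) := by
  refine Csm_map_bijective_of_fixed (𝒰.comap V.subtype) _ ?_ ?_ n
  · intro x y h
    exact incl_injective 𝒰 A h
  · rintro (b : A) ⟨_, ⟨U, hU, rfl⟩, hb⟩
    obtain ⟨U', hU', hU'V⟩ := hV
    obtain ⟨W, hW, hle⟩ := 𝒰.directed U hU U' hU'
    have hb' : ∃ U ∈ 𝒰.sets, ∀ s ∈ U, A.ρ s b = b :=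
      ⟨W, hW, fun s hs => hb ⟨s, hU'V ((hle.trans inf_le_right) hs)⟩
        ((hle.trans inf_le_left) hs)⟩
    exact ⟨(⟨b, hb'⟩ : smPart 𝒰 A), rfl⟩

end smPart

/-- **`Ext(d, A^sm) → Ext(d, A)` is surjective on cohomology** (in fact bijective) -/
theorem ExtC_mapR_incl_surjective (A : Rep.{u} k G) {P0 P1 : Rep.{u} k G} (hP0 : IsSm 𝒰 P0)
    (hP1 : IsSm 𝒰 P1) (d : P1 ⟶ P0) (n : ℕ) :
    Function.Surjective ((ExtC.mapR 𝒰 d (smPart.incl 𝒰 A)).mapH (n + 1)) := by
  refine Cpx.Fib.map_mapH_surjective_succ _ _ _ n ?_ ?_ ?_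
  · exact (Cpx.Hom.mapH_bijective_of_bijective _ (smPart.map_homIncl_bijective 𝒰 A hP1) n).2
  · exact (Cpx.Hom.mapH_bijective_of_bijective _ (smPart.map_homIncl_bijective 𝒰 A hP0) (n + 1)).2
  · exact (Cpx.Hom.mapH_bijective_of_bijective _ (smPart.map_homIncl_bijective 𝒰 A hP1) (n + 1)).1

end Fermat.Agent.S56lib.PT9
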