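/-
S56lib / PT9 / CoarseBase  (helper8).

The base-case data `Base3` (`PT9/Ext3Gen`) for a sub-tower `𝒲` of the local formation
`(Gal(Ω/K₀), Ωˣ)` whose indices are divisible by arbitrary powers of `p` (`PT9/CoarseTower`), with
coefficients in the `𝒲`-smooth part of `Ωˣ`; consequently **`Ext³_𝒲(d, Ωˣ) = 0`** for every pair of
`𝒲`-smooth lattices `d : P₁ → P₀` with `d` injective and `p P₀ ⊆ d P₁`.
-/
import Fermat.Agent.S56lib.PT9.CoarseTower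
import Fermat.Agent.S56lib.PT9.Ext3Gen
import Fermat.Agent.S56lib.PT9.SmPart
import Fermat.Agent.S55lib.LocalH.LocalK5

set_option autoImplicit false
set_option linter.unusedSectionVars false
set_option linter.style.haveILetI false

open scoped IntermediateField

noncomputable section

namespace Fermat.Agent.S56lib.PT9

open groupCohomology CategoryTheory Rep Fermat.Agent.S55lib Fermat.Agent.S55lib.LocalUnr
  Fermat.Agent.S55lib.LocalH Fermat.Agent.S55lib.Cpx Fermat.Agent.S55lib.CFDual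

variable {K₀ Ω : Type} [NontriviallyNormedField K₀] [IsUltrametricDist K₀] [ProperSpace K₀]
  [NormedField Ω] [NormedAlgebra K₀ Ω] [IsUltrametricDist Ω] [Algebra.IsIntegral K₀ Ω]
  [HasUnitRoots K₀ Ω] [IsGalois K₀ Ω] [GalBasis K₀ Ω]
  (𝒲 : OpenBasis (Ω ≃ₐ[K₀] Ω))

/-- the base-case data for the sub-tower `𝒲` -/
theorem base3_of_tower (hco : Csm.Coarser 𝒲 (basis K₀ Ω)) (p : ℕ) [hp : Fact p.Prime]
    (hidx : ∀ m : ℕ, ∃ W ∈ 𝒲.sets, p ^ m ∣ W.index) (V : Subgroup (Ω ≃ₐ[K₀] Ω))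
    (hV : 𝒲.IsOpen V) : Base3 𝒲 p (smPart 𝒲 (unitsRep K₀ Ω)) V := by
  have hVf : (basis K₀ Ω).IsOpen V := by
    obtain ⟨U, hU, hUV⟩ := hV
    obtain ⟨B, hB, hBU⟩ := hco U hU
    exact ⟨B, hB, hBU.trans hUV⟩
  obtain ⟨E, hfd, rfl⟩ := exists_eq_fixingSubgroup_of_isOpen (basis K₀ Ω) hVf
  haveI := hfd
  have hbij := fun n => Cpx.Hom.mapH_bijective_of_bijective _
    (smPart.map_resIncl_bijective 𝒲 (unitsRep K₀ Ω) hV) n
  constructor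
  · intro y _
    obtain ⟨y₁, hy₁⟩ := Hc_two_pdivisible hco hV p hidx
      ((Csm.map (cBasis 𝒲 E) ((Rep.resFunctor E.fixingSubgroup.subtype).map
        (smPart.incl 𝒲 (unitsRep K₀ Ω)))).mapH 2 y)
    obtain ⟨y', rfl⟩ := (hbij 2).2 y₁
    refine ⟨y', (hbij 2).1 ?_⟩
    rw [map_nsmul, hy₁]
  · intro x hx
    apply (hbij 3).1
    rw [map_zero]
    refine Hc_three_eq_zero_of_pow_nsmul_eq_zero hco hV p _ 1 ?_
    rw [pow_one, ← map_nsmul, hx, map_zero]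

/-- **`Ext³_𝒲(d, Ωˣ) = 0`** -/
theorem ext3_tower_eq_zero (hco : Csm.Coarser 𝒲 (basis K₀ Ω)) (p : ℕ) [hp : Fact p.Prime]
    (hidx : ∀ m : ℕ, ∃ W ∈ 𝒲.sets, p ^ m ∣ W.index) {ζ : Ω} (hζ : IsPrimitiveRoot ζ p)
    (hζo : 𝒲.IsOpen (K₀⟮ζ⟯).fixingSubgroup)
    (P0 P1 : Rep.{0} ℤ (Ω ≃ₐ[K₀] Ω)) [Module.Finite ℤ P0] [Module.Free ℤ P0]
    [Module.Finite ℤ P1] [Module.Free ℤ P1] (hsm0 : IsSm 𝒲 P0) (hsm1 : IsSm 𝒲 P1)
    (d : P1 ⟶ P0) (hinj : Function.Injective d.hom) (hdiv : ∀ x : P0, ∃ y : P1, d.hom y = p • x)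
    (x : ExtH 𝒲 d (unitsRep K₀ Ω) 3) : x = 0 := by
  obtain ⟨x', rfl⟩ := ExtC_mapR_incl_surjective 𝒲 (unitsRep K₀ Ω) hsm0 hsm1 d 2 x
  have hcop : Nat.Coprime (K₀⟮ζ⟯).fixingSubgroup.index p := by
    rw [← IntermediateField.finrank_eq_fixingSubgroup_index]
    exact coprime_finrank_adjoin_primitiveRoot p hp.out hζ
  rw [ext3_eq_zero_of_base3 (smPart.isSm 𝒲 (unitsRep K₀ Ω)) hζo hcop
    (fun V hV _ => base3_of_tower 𝒲 hco p hidx V hV) P0 P1 hsm0 hsm1 d hinj hdiv x', map_zero]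

end Fermat.Agent.S56lib.PT9
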