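/-
S56 marathon, WP1 of the Euler characteristic block (helper8): **the local class formation facts in
`V`-form** for `(Gloc q, basisLoc q, Yloc q)` (`Y_q = ℚ̄_qˣ`), EVERY open subgroup `V ≤ G_q`, every prime
`p` (also `p = q`, no root of unity needed):
* `H1_loc_eq_zero` : `H¹(V, Y_q) = 0` (Hilbert 90);
* `H2_loc_equiv` : `H²(V, Y_q) ≃+ ℚ/ℤ`; `card_pTor_H2_loc` : `H²(V, Y_q)[p]` has exactly `p` elements;
  `H2_loc_divisible`;
* `H2_loc_exists_res` : `p`-primary classes of `H²(V, Y_q)` are restrictions of `p`-primary classes of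
  `H²(G_q, Y_q)`.
-/
import Fermat.Agent.S55lib.LocalH.LocalK5Primes
import Fermat.Agent.S55lib.GlobDual.QZ

set_option autoImplicit false
set_option linter.unusedSectionVars false
set_option linter.style.haveILetI false

noncomputable section

namespace Fermat.Agent.S56lib.PT9

open Fermat.Agent.S55lib Fermat.Agent.S55lib.CFDual Fermat.Agent.S55lib.LocalUnr
  Fermat.Agent.S55lib.LocalH Csm Cpx CategoryTheory

namespace H2V

/-- the `p`-torsion of `ℚ/ℤ` has `p` elements -/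
theorem card_pTor_addCircle (p : ℕ) [NeZero p] :
    Nat.card (PT.pTor p (AddCircle (1 : ℚ))) = p := by
  let φ : ZMod p → PT.pTor p (AddCircle (1 : ℚ)) := fun k => ⟨zmodToQZ p k, by
    show p • zmodToQZ p k = 0
    rw [← map_nsmul, nsmul_eq_mul, ZMod.natCast_self, zero_mul, map_zero]⟩
  have hφ : Function.Bijective φ := by
    constructor
    · intro k k' h
      exact zmodToQZ_injective p (congrArg Subtype.val h)
    · rintro ⟨t, ht⟩
      obtain ⟨r, rfl⟩ := QuotientAddGroup.mk_surjective t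
      have h0 : ((p • r : ℚ) : AddCircle (1 : ℚ)) = 0 := by
        rw [AddCircle.coe_nsmul]
        exact ht
      rw [AddCircle.coe_eq_zero_iff] at h0
      obtain ⟨k, hk⟩ := h0
      refine ⟨(k : ZMod p), Subtype.ext ?_⟩
      show zmodToQZ p (k : ZMod p) = _
      rw [zmodToQZ_intCast]
      have hp : (p : ℚ) ≠ 0 := Nat.cast_ne_zero.mpr (NeZero.ne p)
      rw [zsmul_eq_mul, mul_one, nsmul_eq_mul] at hk
      have h4 : (k : ℚ) / (p : ℚ) = r := by
        rw [hk]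
        field_simp
      rw [h4]
  rw [← Nat.card_eq_of_bijective φ hφ, Nat.card_zmod]

/-- transport of the `p`-torsion along an additive equivalence -/
def pTorCongr (p : ℕ) {X Y : Type*} [AddCommGroup X] [AddCommGroup Y] (e : X ≃+ Y) :
    PT.pTor p X ≃ PT.pTor p Y where
  toFun x := ⟨e x.1, by
    show p • e x.1 = 0
    rw [← map_nsmul, x.2, map_zero]⟩
  invFun y := ⟨e.symm y.1, by
    show p • e.symm y.1 = 0
    rw [← map_nsmul, y.2, map_zero]⟩
  left_inv x := Subtype.ext (e.symm_apply_apply x.1)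
  right_inv y := Subtype.ext (e.apply_symm_apply y.1)

section Generic

variable {K₀ Ω : Type} [NontriviallyNormedField K₀] [IsUltrametricDist K₀] [ProperSpace K₀]
  [NormedField Ω] [NormedAlgebra K₀ Ω] [IsUltrametricDist Ω] [Algebra.IsIntegral K₀ Ω]
  [HasUnitRoots K₀ Ω] [IsGalois K₀ Ω] [GalBasis K₀ Ω]

theorem H1_eq_zero_gen (V : Subgroup (Ω ≃ₐ[K₀] Ω)) (hV : (basis K₀ Ω).IsOpen V)
    (x : Hsm ((basis K₀ Ω).comap V.subtype) (Rep.res V.subtype (unitsRep K₀ Ω)) 1) : x = 0 := by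
  obtain ⟨E, hE, rfl⟩ := exists_eq_fixingSubgroup_of_isOpen (basis K₀ Ω) hV
  exact Hsm_one_eq_zero E x

theorem nonempty_H2_equiv_gen (V : Subgroup (Ω ≃ₐ[K₀] Ω)) (hV : (basis K₀ Ω).IsOpen V) :
    Nonempty (Hsm ((basis K₀ Ω).comap V.subtype) (Rep.res V.subtype (unitsRep K₀ Ω)) 2 ≃+
      AddCircle (1 : ℚ)) := by
  obtain ⟨E, hE, rfl⟩ := exists_eq_fixingSubgroup_of_isOpen (basis K₀ Ω) hV
  exact ⟨invSmEquiv E⟩

theorem H2_exists_res_gen (p : ℕ) [hp : Fact p.Prime] (V : Subgroup (Ω ≃ₐ[K₀] Ω))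
    (hV : (basis K₀ Ω).IsOpen V)
    (y : Hsm ((basis K₀ Ω).comap V.subtype) (Rep.res V.subtype (unitsRep K₀ Ω)) 2)
    (hy : ∃ m : ℕ, p ^ m • y = 0) :
    ∃ x : Hsm (basis K₀ Ω) (unitsRep K₀ Ω) 2, (∃ m : ℕ, p ^ m • x = 0) ∧
      (resHom (basis K₀ Ω) V (unitsRep K₀ Ω)).mapH 2 x = y := by
  obtain ⟨E, hE, rfl⟩ := exists_eq_fixingSubgroup_of_isOpen (basis K₀ Ω) hV
  obtain ⟨m, hm⟩ := hy
  exact local_cf2_surj p hp.out E y m hm

end Generic

variable (q : Nat.Primes) (V : Subgroup (Gloc q)) (hV : (basisLoc q).IsOpen V)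

include hV

/-- **Hilbert 90 in `V`-form**: `H¹(V, ℚ̄_qˣ) = 0` for every open `V ≤ G_q` -/
theorem H1_loc_eq_zero
    (x : Hsm ((basisLoc q).comap V.subtype) (Rep.res V.subtype (Yloc q)) 1) : x = 0 :=
  letI := galBasisLevel q
  H1_eq_zero_gen (K₀ := ℚ_[(q : ℕ)]) (Ω := PadicAlgCl (q : ℕ)) V hV x

/-- **`H²(V, ℚ̄_qˣ) ≃+ ℚ/ℤ`** for every open `V ≤ G_q` -/
theorem nonempty_H2_loc_equiv :
    Nonempty (Hsm ((basisLoc q).comap V.subtype) (Rep.res V.subtype (Yloc q)) 2 ≃+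
      AddCircle (1 : ℚ)) :=
  letI := galBasisLevel q
  nonempty_H2_equiv_gen (K₀ := ℚ_[(q : ℕ)]) (Ω := PadicAlgCl (q : ℕ)) V hV

/-- **`H²(V, ℚ̄_qˣ)[p]` has exactly `p` elements** -/
theorem card_pTor_H2_loc (p : ℕ) [hp : Fact p.Prime] :
    Nat.card (PT.pTor p (Hsm ((basisLoc q).comap V.subtype) (Rep.res V.subtype (Yloc q)) 2)) = p := by
  obtain ⟨e⟩ := nonempty_H2_loc_equiv q V hV
  haveI : NeZero p := ⟨hp.out.ne_zero⟩
  rw [Nat.card_congr (pTorCongr p e), card_pTor_addCircle]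

/-- **`H²(V, ℚ̄_qˣ)` is divisible** -/
theorem H2_loc_divisible (n : ℕ) (hn : 0 < n)
    (y : Hsm ((basisLoc q).comap V.subtype) (Rep.res V.subtype (Yloc q)) 2) :
    ∃ z : Hsm ((basisLoc q).comap V.subtype) (Rep.res V.subtype (Yloc q)) 2, n • z = y := by
  obtain ⟨e⟩ := nonempty_H2_loc_equiv q V hV
  obtain ⟨t, ht⟩ := addCircle_divisible n hn (e y)
  refine ⟨e.symm t, e.injective ?_⟩
  rw [map_nsmul, e.apply_symm_apply, ht]

/-- `p`-primary classes are divisible by `p` inside the `p`-primary part -/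
theorem H2_loc_pdiv_primary (p : ℕ) [hp : Fact p.Prime]
    (y : Hsm ((basisLoc q).comap V.subtype) (Rep.res V.subtype (Yloc q)) 2)
    (hy : ∃ m : ℕ, p ^ m • y = 0) :
    ∃ z : Hsm ((basisLoc q).comap V.subtype) (Rep.res V.subtype (Yloc q)) 2,
      (∃ m : ℕ, p ^ m • z = 0) ∧ p • z = y := by
  obtain ⟨z, rfl⟩ := H2_loc_divisible q V hV p hp.out.pos y
  obtain ⟨m, hm⟩ := hy
  exact ⟨z, ⟨m + 1, by rw [pow_succ, mul_smul]; exact hm⟩, rfl⟩

/-- **`p`-primary classes of `H²(V, ℚ̄_qˣ)` are restrictions of `p`-primary classes of `H²(G_q, ℚ̄_qˣ)`** -/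
theorem H2_loc_exists_res (p : ℕ) [hp : Fact p.Prime]
    (y : Hsm ((basisLoc q).comap V.subtype) (Rep.res V.subtype (Yloc q)) 2)
    (hy : ∃ m : ℕ, p ^ m • y = 0) :
    ∃ x : Hsm (basisLoc q) (Yloc q) 2, (∃ m : ℕ, p ^ m • x = 0) ∧
      (resHom (basisLoc q) V (Yloc q)).mapH 2 x = y :=
  letI := galBasisLevel q
  H2_exists_res_gen (K₀ := ℚ_[(q : ℕ)]) (Ω := PadicAlgCl (q : ℕ)) p V hV y hy

end H2V

end Fermat.Agent.S56lib.PT9
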