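/-
S56 marathon, WP1 of the Euler characteristic block (helper8): **`H²(V, C)` in `V`-form** for the open
subgroups `V ≤ U₀` of a class formation `CFData 𝒰 p U₀ C`:
* `H2V.pTorEquiv : H²(V, C)[p] ≃+ H²(G, C)[p]` (through `J = Hom(ℤ[G/V], C)`, Shapiro and the trace),
* `H2V.pdiv` : `H²(V, C)` is `p`-divisible,
* `H2V.exists_res` : `p`-primary classes of `H²(V, C)` are restrictions of `p`-primary classes of
  `H²(G, C)` (= `cf2_surj`),
* `H2V.index_nsmul_eq_zero_of_res_eq_zero` : `res_V x = 0 ⟹ [G : V] x = 0` (any smooth module, degrees `≤ 3`).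
-/
import Fermat.Agent.S55lib.CFDual.Base1
import Fermat.Agent.S55lib.GlobDual.QZ
import Fermat.Agent.S56lib.PT9a.Shapiro2S

set_option autoImplicit false
set_option linter.unusedSectionVars false
set_option linter.style.haveILetI false

noncomputable section

namespace Fermat.Agent.S56lib.PT9

open Fermat.Agent.S55lib Fermat.Agent.S55lib.CFDual Csm Cpx CategoryTheory

namespace H2V

variable {G : Type} [Group G] {𝒰 : OpenBasis G} {p : ℕ} [hp : Fact p.Prime] {U₀ : Subgroup G}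
  {C : Rep.{0} ℤ G} {V : Subgroup G}

section Base

variable (hB : BaseData 𝒰 p U₀ C V) [Fintype (G ⧸ V)]

include hB

/-- Shapiro's map `H²(G, J) → H²(V, C)` is bijective -/
lemma shJ_bijective : Function.Bijective (hB.shJ.mapH 2) := by
  constructor
  · rw [injective_iff_map_eq_zero]
    intro w hw
    exact hB.SJ.sh_H2_injective w (fun _ => hw)
  · intro y
    obtain ⟨x, hx⟩ := hB.SJ.sh_H2_surjective (fun _ => y)
    exact ⟨x, hx PUnit.unit⟩

/-- **`H²(V, C)` is `p`-divisible** -/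
theorem pdiv (y : Hsm (𝒰.comap V.subtype) (Rep.res V.subtype C) 2) :
    ∃ z : Hsm (𝒰.comap V.subtype) (Rep.res V.subtype C) 2, p • z = y := by
  obtain ⟨w, rfl⟩ := (shJ_bijective hB).2 y
  obtain ⟨w', rfl⟩ := hB.HJ2_div w
  exact ⟨hB.shJ.mapH 2 w', (map_nsmul _ _ _).symm⟩

/-- `p`-primary classes are divisible by `p` inside the `p`-primary part -/
theorem pdiv_primary (y : Hsm (𝒰.comap V.subtype) (Rep.res V.subtype C) 2)
    (hy : ∃ m : ℕ, p ^ m • y = 0) :
    ∃ z : Hsm (𝒰.comap V.subtype) (Rep.res V.subtype C) 2, (∃ m : ℕ, p ^ m • z = 0) ∧ p • z = y := by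
  obtain ⟨z, rfl⟩ := pdiv hB y
  obtain ⟨m, hm⟩ := hy
  exact ⟨z, ⟨m + 1, by rw [pow_succ, mul_smul]; exact hm⟩, rfl⟩

/-- **`p`-primary classes of `H²(V, C)` are restrictions from `G`** -/
theorem exists_res (y : Hsm (𝒰.comap V.subtype) (Rep.res V.subtype C) 2)
    (hy : ∃ m : ℕ, p ^ m • y = 0) :
    ∃ x : Hsm 𝒰 C 2, (∃ m : ℕ, p ^ m • x = 0) ∧ (resHom 𝒰 V C).mapH 2 x = y :=
  hB.cf.cf2_surj V hB.hV hB.hVU y hy

/-- the trace `Σ_* ∘ sh⁻¹ : H²(V, C)[p] → H²(G, C)[p]` as an additive map on the `p`-torsion of `H²(G, J)` -/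
def sigmaTor (_hB : BaseData 𝒰 p U₀ C V) :
    PT.pTor p (Hsm 𝒰 (homRep (cTriv (k := ℤ) V) C) 2) →+ PT.pTor p (Hsm 𝒰 C 2) where
  toFun w := ⟨(Csm.map 𝒰 (sigmaJ (V := V) C)).mapH 2 w.1, by
    show p • _ = 0
    rw [← map_nsmul, w.2, map_zero]⟩
  map_zero' := Subtype.ext (map_zero _)
  map_add' a b := Subtype.ext (map_add _ _ _)

lemma sigmaTor_bijective : Function.Bijective (sigmaTor hB) := by
  constructor
  · rw [injective_iff_map_eq_zero]
    intro w hw
    exact Subtype.ext (hB.sigma_inj w.1 w.2 (congrArg Subtype.val hw))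
  · intro z
    obtain ⟨w, hw, hwz⟩ := hB.sigma_surj z.1 z.2
    exact ⟨⟨w, hw⟩, Subtype.ext hwz⟩

/-- Shapiro on the `p`-torsion -/
def shTor : PT.pTor p (Hsm 𝒰 (homRep (cTriv (k := ℤ) V) C) 2) →+
    PT.pTor p (Hsm (𝒰.comap V.subtype) (Rep.res V.subtype C) 2) where
  toFun w := ⟨hB.shJ.mapH 2 w.1, by
    show p • _ = 0
    rw [← map_nsmul, w.2, map_zero]⟩
  map_zero' := Subtype.ext (map_zero _)
  map_add' a b := Subtype.ext (map_add _ _ _)

lemma shTor_bijective : Function.Bijective (shTor hB) := by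
  constructor
  · rw [injective_iff_map_eq_zero]
    intro w hw
    exact Subtype.ext ((injective_iff_map_eq_zero _).1 (shJ_bijective hB).1 w.1
      (congrArg Subtype.val hw))
  · intro y
    obtain ⟨w, hw⟩ := (shJ_bijective hB).2 y.1
    refine ⟨⟨w, ?_⟩, Subtype.ext hw⟩
    apply (shJ_bijective hB).1
    rw [map_nsmul, hw, map_zero]
    exact y.2

/-- **`H²(V, C)[p] ≃+ H²(G, C)[p]`** -/
def pTorEquiv : PT.pTor p (Hsm (𝒰.comap V.subtype) (Rep.res V.subtype C) 2) ≃+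
    PT.pTor p (Hsm 𝒰 C 2) :=
  (AddEquiv.ofBijective (shTor hB) (shTor_bijective hB)).symm.trans
    (AddEquiv.ofBijective (sigmaTor hB) (sigmaTor_bijective hB))

/-- the inverse of `pTorEquiv` on a class `x` with `p • ([G:V] • x') = …`: characterisation through restriction.
If `x ∈ H²(G, C)` is `p`-primary and `y = res_V x` is killed by `p` then `pTorEquiv y = [G : V] • x`. -/
theorem pTorEquiv_res (x : Hsm 𝒰 C 2)
    (hy : p • (resHom 𝒰 V C).mapH 2 x = 0) :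
    ((pTorEquiv hB ⟨(resHom 𝒰 V C).mapH 2 x, hy⟩ : PT.pTor p (Hsm 𝒰 C 2)) : Hsm 𝒰 C 2) =
      V.index • x := by
  have hw : p • (Csm.map 𝒰 (etaJ (V := V) C)).mapH 2 x = 0 := by
    apply (shJ_bijective hB).1
    rw [map_nsmul, hB.shJ_eta, map_zero]
    exact hy
  have h1 : (AddEquiv.ofBijective (shTor hB) (shTor_bijective hB)).symm
      ⟨(resHom 𝒰 V C).mapH 2 x, hy⟩ = ⟨(Csm.map 𝒰 (etaJ (V := V) C)).mapH 2 x, hw⟩ := by
    rw [AddEquiv.symm_apply_eq]
    exact Subtype.ext (hB.shJ_eta 2 x).symm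
  show ((sigmaTor hB ((AddEquiv.ofBijective (shTor hB) (shTor_bijective hB)).symm
    ⟨(resHom 𝒰 V C).mapH 2 x, hy⟩) : PT.pTor p (Hsm 𝒰 C 2)) : Hsm 𝒰 C 2) = _
  rw [h1]
  exact hB.sigma_eta 2 x

theorem card_pTor :
    Nat.card (PT.pTor p (Hsm (𝒰.comap V.subtype) (Rep.res V.subtype C) 2)) =
      Nat.card (PT.pTor p (Hsm 𝒰 C 2)) :=
  Nat.card_congr (pTorEquiv hB).toEquiv

end Base

end H2V

end Fermat.Agent.S56lib.PT9
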