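/-
S56 marathon, WP1 of the Euler characteristic block (helper8): **homomorphisms with kernel and cokernel
torsion of order prime to `p`** (`IsPIso p f`).  They induce isomorphisms on `p`-primary torsion and
preserve `p`-torsion-freeness and `p`-divisibility.  A short exact sequence of complexes whose third
term has cohomology of order prime to `p` gives such maps (`IsPIso.of_isSES`); smooth cochains with
values in a module of order prime to `p` have cohomology of order prime to `p`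
(`Hsm_primeToP`).
-/
import Fermat.Agent.S55lib.Cpx.Shapiro
import Fermat.Agent.S55lib.GlobDual.QZ

set_option autoImplicit false
set_option linter.unusedSectionVars false

noncomputable section

namespace Fermat.Agent.S56lib.PT9

open Fermat.Agent.S55lib Fermat.Agent.S55lib.Cpx CategoryTheory

/-- a homomorphism whose kernel and cokernel are torsion of order prime to `p` -/
structure IsPIso (p : ℕ) {X Y : Type*} [AddCommGroup X] [AddCommGroup Y] (f : X →+ Y) : Prop where
  ker : ∀ x, f x = 0 → ∃ N : ℕ, N.Coprime p ∧ N • x = 0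
  coker : ∀ y, ∃ N : ℕ, N.Coprime p ∧ ∃ x, f x = N • y

/-- an element killed by two coprime integers is zero -/
lemma eq_zero_of_coprime_nsmul {X : Type*} [AddCommGroup X] {a b : ℕ} (hab : a.Coprime b) {x : X}
    (ha : a • x = 0) (hb : b • x = 0) : x = 0 := by
  have h1 : addOrderOf x ∣ Nat.gcd a b :=
    Nat.dvd_gcd (addOrderOf_dvd_of_nsmul_eq_zero ha) (addOrderOf_dvd_of_nsmul_eq_zero hb)
  rw [hab.gcd_eq_one, Nat.dvd_one] at h1
  exact AddMonoid.addOrderOf_eq_one_iff.1 h1

/-- Bezout: if `a`, `b` are coprime then `x = (u a + v b) x` -/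
lemma exists_zsmul_add_of_coprime {a b : ℕ} (hab : a.Coprime b) :
    ∃ u v : ℤ, u * a + v * b = 1 := by
  have h := Nat.isCoprime_iff_coprime.2 hab
  obtain ⟨u, v, huv⟩ := h
  exact ⟨u, v, huv⟩

namespace IsPIso

variable {p : ℕ} {X Y : Type*} [AddCommGroup X] [AddCommGroup Y] {f : X →+ Y}

/-- injectivity on `p`-primary elements -/
theorem eq_zero_of_primary (_hp : p.Prime) (h : IsPIso p f) {x : X} (hx : ∃ m : ℕ, p ^ m • x = 0)
    (hfx : f x = 0) : x = 0 := by
  obtain ⟨m, hm⟩ := hx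
  obtain ⟨N, hN, hNx⟩ := h.ker x hfx
  exact eq_zero_of_coprime_nsmul (Nat.Coprime.pow_right m hN) hNx hm

/-- surjectivity on `p^m`-torsion -/
theorem exists_primary (_hp : p.Prime) (h : IsPIso p f) {y : Y} {m : ℕ} (hy : p ^ m • y = 0) :
    ∃ x : X, p ^ m • x = 0 ∧ f x = y := by
  obtain ⟨N, hN, x₀, hx₀⟩ := h.coker y
  have h1 : f (p ^ m • x₀) = 0 := by
    rw [map_nsmul, hx₀, smul_comm, hy, smul_zero]
  obtain ⟨N', hN', hN'x⟩ := h.ker _ h1
  have hcop : (N * N').Coprime (p ^ m) := Nat.Coprime.pow_right m (Nat.Coprime.mul_left hN hN')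
  obtain ⟨u, v, huv⟩ := exists_zsmul_add_of_coprime hcop
  refine ⟨(u * N') • x₀, ?_, ?_⟩
  · have e : p ^ m • ((u * N') • x₀) = u • (N' • (p ^ m • x₀)) := by module
    rw [e, hN'x, smul_zero]
  · have h3 : (u * ↑(N * N') + v * ↑(p ^ m)) • y = y := by rw [huv, one_smul]
    have h4 : (u * ↑(N * N') + v * ↑(p ^ m)) • y = u • N' • N • y + v • (p ^ m • y) := by
      push_cast
      module
    rw [h4, hy, smul_zero, add_zero] at h3
    rw [map_zsmul, mul_smul, natCast_zsmul, hx₀]
    exact h3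

/-- `p`-torsion-freeness descends -/
theorem tor_free (hp : p.Prime) (h : IsPIso p f) (hY : ∀ y : Y, p • y = 0 → y = 0) (x : X)
    (hx : p • x = 0) : x = 0 :=
  h.eq_zero_of_primary hp ⟨1, by rw [pow_one]; exact hx⟩
    (hY _ (by rw [← map_nsmul, hx, map_zero]))

/-- `p`-divisibility descends -/
theorem pdiv (_hp : p.Prime) (h : IsPIso p f) (hY : ∀ y : Y, ∃ y', p • y' = y) (x : X) :
    ∃ x', p • x' = x := by
  obtain ⟨y', hy'⟩ := hY (f x)
  obtain ⟨N, hN, x₁, hx₁⟩ := h.coker y'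
  have h1 : f (N • x - p • x₁) = 0 := by
    rw [map_sub, map_nsmul, map_nsmul, hx₁, ← hy', smul_comm]
    exact sub_self _
  obtain ⟨N', hN', hN'x⟩ := h.ker _ h1
  have hcop : (N' * N).Coprime p := Nat.Coprime.mul_left hN' hN
  obtain ⟨u, v, huv⟩ := exists_zsmul_add_of_coprime hcop
  have h2 : (N' * N) • x = p • (N' • x₁) := by
    rw [smul_sub, sub_eq_zero] at hN'x
    rw [mul_smul, hN'x, smul_comm]
  refine ⟨u • (N' • x₁) + v • x, ?_⟩
  have h3 : (u * ↑(N' * N) + v * ↑p) • x = x := by rw [huv, one_smul]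
  have h4 : (u * ↑(N' * N) + v * ↑p) • x = u • ((N' * N) • x) + p • (v • x) := by
    push_cast
    module
  rw [h4, h2] at h3
  rw [smul_add, smul_comm p u]
  exact h3

/-- `p`-divisibility of the `p`-primary part descends -/
theorem pdiv_primary (hp : p.Prime) (h : IsPIso p f)
    (hY : ∀ y : Y, (∃ m : ℕ, p ^ m • y = 0) → ∃ y', (∃ m : ℕ, p ^ m • y' = 0) ∧ p • y' = y)
    (x : X) (hx : ∃ m : ℕ, p ^ m • x = 0) : ∃ x', (∃ m : ℕ, p ^ m • x' = 0) ∧ p • x' = x := by
  obtain ⟨m, hm⟩ := hx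
  obtain ⟨y', ⟨m', hm'⟩, hy'⟩ := hY (f x) ⟨m, by rw [← map_nsmul, hm, map_zero]⟩
  obtain ⟨x', hx', hfx'⟩ := h.exists_primary hp hm'
  refine ⟨x', ⟨m', hx'⟩, ?_⟩
  have h1 : p • x' - x = 0 := by
    apply h.eq_zero_of_primary hp ⟨m' + m, ?_⟩
    · rw [map_sub, map_nsmul, hfx', hy', sub_self]
    · have e : p ^ (m' + m) • (p • x' - x) = p ^ m • p • (p ^ m' • x') - p ^ m' • (p ^ m • x) := by
        rw [pow_add]
        module
      rw [e, hx', hm, smul_zero, smul_zero, smul_zero, sub_self]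
  exact sub_eq_zero.1 h1

/-- the induced map on `p`-torsion -/
def torMap (p : ℕ) (f : X →+ Y) : PT.pTor p X →+ PT.pTor p Y where
  toFun x := ⟨f x.1, by
    show p • f x.1 = 0
    rw [← map_nsmul, x.2, map_zero]⟩
  map_zero' := Subtype.ext (map_zero f)
  map_add' a b := Subtype.ext (map_add f _ _)

@[simp] lemma torMap_coe (x : PT.pTor p X) : ((torMap p f x : PT.pTor p Y) : Y) = f x.1 := rfl

theorem torMap_bijective (hp : p.Prime) (h : IsPIso p f) : Function.Bijective (torMap p f) := by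
  constructor
  · rw [injective_iff_map_eq_zero]
    intro x hx
    exact Subtype.ext (h.eq_zero_of_primary hp ⟨1, by rw [pow_one]; exact x.2⟩
      (congrArg Subtype.val hx))
  · intro y
    obtain ⟨x, hx, hfx⟩ := h.exists_primary hp (m := 1) (by rw [pow_one]; exact y.2)
    rw [pow_one] at hx
    exact ⟨⟨x, hx⟩, Subtype.ext hfx⟩

/-- **`X[p] ≃+ Y[p]`** -/
def torEquiv (hp : p.Prime) (h : IsPIso p f) : PT.pTor p X ≃+ PT.pTor p Y :=
  AddEquiv.ofBijective (torMap p f) (h.torMap_bijective hp)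

end IsPIso

/-! ### Long exact sequences -/

/-- in a short exact sequence of complexes whose third term has cohomology of order prime to `p`,
the first map is an isomorphism up to prime-to-`p` torsion on cohomology -/
theorem IsPIso.of_isSES {k : Type} [CommRing k] {K L M : Cpx k} {f : Hom K L} {g : Hom L M}
    (S : IsSES f g) (p : ℕ)
    (hM : ∀ (n : ℕ) (h : M.H n), ∃ N : ℕ, N.Coprime p ∧ N • h = 0) (n : ℕ) :
    IsPIso p (f.mapH n).toAddMonoidHom where
  ker := by
    intro x hx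
    have hx' : f.mapH n x = 0 := hx
    cases n with
    | zero =>
      refine ⟨1, Nat.coprime_one_left p, ?_⟩
      rw [one_smul]
      exact S.mapH_zero_injective (hx'.trans (map_zero _).symm)
    | succ m =>
      obtain ⟨h', rfl⟩ := (S.exact_left m x).1 hx'
      obtain ⟨N, hN, hNh⟩ := hM m h'
      exact ⟨N, hN, by rw [← map_nsmul, hNh, map_zero]⟩
  coker := by
    intro y
    obtain ⟨N, hN, hNy⟩ := hM n (g.mapH n y)
    rw [← map_nsmul] at hNy
    obtain ⟨x, hx⟩ := (S.exact_mid n (N • y)).1 hNy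
    exact ⟨N, hN, x, hx⟩

/-! ### Smooth cochains with values in a module of order prime to `p` -/

/-- smooth cohomology of a module all of whose elements have order prime to `p` has the same property -/
theorem Hsm_primeToP {H : Type} [Group H] (𝒱 : OpenBasis H) (Q : Rep.{0} ℤ H) (p : ℕ)
    (hQ : ∀ q : Q, ∃ N : ℕ, N.Coprime p ∧ N • q = 0) (n : ℕ) (h : Hsm 𝒱 Q n) :
    ∃ N : ℕ, N.Coprime p ∧ N • h = 0 := by
  classical
  obtain ⟨z, hz, rfl⟩ := (Csm 𝒱 Q).exists_rep h
  obtain ⟨U, hU, hinv, -⟩ := z.2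
  have hfin : (Set.range z.1).Finite := hinv.finite_range (𝒱.finiteIndex U hU)
  choose Nq hNq hNq' using hQ
  refine ⟨∏ t ∈ hfin.toFinset, Nq t, Nat.Coprime.prod_left fun t _ => hNq t, ?_⟩
  have h0 : (∏ t ∈ hfin.toFinset, Nq t) • z = 0 := by
    apply Subtype.ext
    funext g
    show (∏ t ∈ hfin.toFinset, Nq t) • z.1 g = 0
    have hmem : z.1 g ∈ hfin.toFinset := hfin.mem_toFinset.2 ⟨g, rfl⟩
    obtain ⟨c, hc⟩ := Finset.dvd_prod_of_mem Nq hmem
    rw [hc, mul_comm, mul_smul, hNq', smul_zero]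
  unfold Cpx.cl
  rw [← map_nsmul]
  have : (∏ t ∈ hfin.toFinset, Nq t) • (⟨z, (Csm 𝒱 Q).mem_Z.2 hz⟩ : (Csm 𝒱 Q).Z n) = 0 :=
    Subtype.ext h0
  rw [this, map_zero]

/-- restriction of a smooth module along a homomorphism is smooth for the pulled back basis -/
lemma isSm_res_comap {G D : Type} [Group G] [Group D] (𝒰 : OpenBasis G) (r : D →* G)
    {A : Rep.{0} ℤ G} (hA : IsSm 𝒰 A) : IsSm (𝒰.comap r) (Rep.res r A) := fun a => by
  obtain ⟨U, hU, h⟩ := hA a
  exact ⟨_, 𝒰.comap_mem_comap r hU, fun s hs => h (r s) hs⟩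

end Fermat.Agent.S56lib.PT9
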