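/-
S56 marathon, WP1 of the Euler characteristic block (helper8): **the class formation facts for
`C_S = J_S/E_S` (`CSrep S`) in `V`-form**, for every open subgroup `V ≤ G_ℚ` (topology of `G_S`, `p ∈ S`
odd) fixing `ζ_p`:
* `H¹(V, C_S)` has no `p`-torsion and is `p`-divisible;
* `H²(V, C_S)[p]` has exactly `p` elements, the `p`-primary part of `H²(V, C_S)` is `p`-divisible and consists
  of restrictions of `p`-primary classes of `H²(G_ℚ, C_S)`.
They are transferred from `CSfull S` (for which `CFData` is known) along `cmp S : CSrep S ⟶ CSfull S`, whose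
cokernel `lim Cl_S(L)` is torsion of order prime to `p`.
-/
import Fermat.Agent.S56lib.PT9.H2V
import Fermat.Agent.S56lib.PT9.PrimeToP
import Fermat.Agent.S55lib.GlobDual.K12Final
import Fermat.Agent.S55lib.GlobDual.HIII
import Fermat.Agent.S55lib.Dev.GlobalCF
import Fermat.Agent.S55lib.Recip.FundClassStmt

set_option autoImplicit false
set_option linter.unusedSectionVars false
set_option linter.style.haveILetI false

noncomputable section

namespace Fermat.Agent.S56lib.PT9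

open Fermat.Agent.S55lib Fermat.Agent.S55lib.CFDual Csm Cpx CategoryTheory

namespace H2V

variable (S : Finset Nat.Primes) {p : ℕ} [hp : Fact p.Prime]

/-- every element of `lim Cl_S(L)` has order prime to `p ∈ S` -/
theorem ClSlim_primeToP (hpS : (⟨p, hp.out⟩ : Nat.Primes) ∈ S) (w : ClSlim S) :
    ∃ N : ℕ, N.Coprime p ∧ N • w = 0 := by
  obtain ⟨n, hn, hnw⟩ := ClSlim_torsion S w
  obtain ⟨a, m, hm, rfl⟩ := Nat.exists_eq_pow_mul_and_not_dvd hn p hp.out.ne_one
  refine ⟨m, ((Nat.Prime.coprime_iff_not_dvd hp.out).2 hm).symm, ?_⟩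
  rw [mul_smul] at hnw
  clear hn
  induction a with
  | zero => simpa using hnw
  | succ a ih =>
    apply ih
    rw [pow_succ, mul_smul] at hnw
    exact ClSlim_noPTorsion S hp.out hpS _ (by rw [smul_comm]; exact hnw)

section Transfer

variable {S} {H : Type} [Group H] (r : H →* GQ)

/-- the short exact sequence `0 → C_S → CSfull → lim Cl_S → 0` on smooth cochains of `H → G_ℚ` -/
theorem cmp_isSES :
    IsSES (Csm.map ((basisS S).comap r) (Rep.resMap r (cmp S)))
      (Csm.map ((basisS S).comap r) (Rep.resMap r (cokCmp S))) :=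
  Csm.map_isSES _ _ (isSm_res_comap (basisS S) r (CSfull_isSm S)) (cmp_injective S)
    (cokCmp_surjective S) (cokCmp_eq_zero_iff S)

/-- `Hⁿ(H, C_S) → Hⁿ(H, CSfull)` is an isomorphism up to torsion prime to `p` -/
theorem cmp_isPIso (hpS : (⟨p, hp.out⟩ : Nat.Primes) ∈ S) (n : ℕ) :
    IsPIso p ((Csm.map ((basisS S).comap r) (Rep.resMap r (cmp S))).mapH n).toAddMonoidHom :=
  IsPIso.of_isSES (cmp_isSES r) p
    (fun m h => Hsm_primeToP ((basisS S).comap r) (Rep.res r (ClSlim S)) p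
      (ClSlim_primeToP S hpS) m h) n

end Transfer

/-- the same for `G_ℚ` itself -/
theorem cmp_isSES_top :
    IsSES (Csm.map (basisS S) (cmp S)) (Csm.map (basisS S) (cokCmp S)) :=
  Csm.map_isSES _ _ (CSfull_isSm S) (cmp_injective S) (cokCmp_surjective S) (cokCmp_eq_zero_iff S)

theorem cmp_isPIso_top (hpS : (⟨p, hp.out⟩ : Nat.Primes) ∈ S) (n : ℕ) :
    IsPIso p ((Csm.map (basisS S) (cmp S)).mapH n).toAddMonoidHom :=
  IsPIso.of_isSES (cmp_isSES_top S) p
    (fun m h => Hsm_primeToP (basisS S) (ClSlim S) p (ClSlim_primeToP S hpS) m h) n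

variable (hp2 : p ≠ 2) (hpS : (⟨p, hp.out⟩ : Nat.Primes) ∈ S) {ζ : Qbar} (hζ : IsPrimitiveRoot ζ p)
  (V : Subgroup GQ) (hV : (basisS S).IsOpen V) (hVζ : ∀ v ∈ V, v ζ = ζ)

include hp2 hpS hζ hV hVζ

/-- the class formation data of `CSfull S` for the open subgroups of `V` -/
theorem cfData_CSfull : CFData (basisS S) p V (CSfull S) :=
  Dev.cfData_global hp2 hpS
    (Dev.topClassStatement_of_fundClass (Recip.fundClassStatement hp2) ⟨_, hpS⟩) hζ V hVζ hV

theorem baseData_CSfull : BaseData (basisS S) p V (CSfull S) V :=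
  ⟨cfData_CSfull S hp2 hpS hζ V hV hVζ, CSfull_isSm S, hV, le_rfl⟩

/-- **`H¹(V, C_S)` has no `p`-torsion** -/
theorem H1_CSrep_torsion_free
    (x : Hsm ((basisS S).comap V.subtype) (Rep.res V.subtype (CSrep S)) 1) (hx : p • x = 0) :
    x = 0 :=
  (cmp_isPIso V.subtype hpS 1).tor_free hp.out
    (fun y hy => (cfData_CSfull S hp2 hpS hζ V hV hVζ).cf1_inj V hV le_rfl y hy) x hx

/-- **`H¹(V, C_S)` is `p`-divisible** -/
theorem H1_CSrep_pdiv (x : Hsm ((basisS S).comap V.subtype) (Rep.res V.subtype (CSrep S)) 1) :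
    ∃ y : Hsm ((basisS S).comap V.subtype) (Rep.res V.subtype (CSrep S)) 1, p • y = x :=
  (cmp_isPIso V.subtype hpS 1).pdiv hp.out
    (fun y => (cfData_CSfull S hp2 hpS hζ V hV hVζ).cf1_div V hV le_rfl y) x

/-- `H²(G_ℚ, CSfull S)[p]` has `p` elements -/
theorem card_pTor_H2_CSfull_top : Nat.card (PT.pTor p (Hsm (basisS S) (CSfull S) 2)) = p := by
  have hT := Dev.card_torsion_le_top hp2 hpS
    (Dev.topClassStatement_of_fundClass (Recip.fundClassStatement hp2) ⟨_, hpS⟩)
  have hIII := PT.hIII hp2 S hpS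
  obtain ⟨I⟩ := PT.nonempty_invData S hT (fun q => PT.exists_ne_zero_loc q.1 p) hIII ⟨_, hpS⟩
  rw [Nat.card_eq_of_bijective I.ιS I.ιS_bij, Nat.card_zmod]

/-- **`H²(V, C_S)[p]` has exactly `p` elements** -/
theorem card_pTor_H2_CSrep :
    Nat.card (PT.pTor p (Hsm ((basisS S).comap V.subtype) (Rep.res V.subtype (CSrep S)) 2)) = p := by
  haveI : Finite (GQ ⧸ V) := finite_quot_of_isOpen hV
  haveI : Fintype (GQ ⧸ V) := Fintype.ofFinite _
  rw [Nat.card_congr ((cmp_isPIso V.subtype hpS 2).torEquiv hp.out).toEquiv,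
    card_pTor (baseData_CSfull S hp2 hpS hζ V hV hVζ)]
  exact card_pTor_H2_CSfull_top S hp2 hpS hζ V hV hVζ

/-- **the `p`-primary part of `H²(V, C_S)` is `p`-divisible** -/
theorem H2_CSrep_pdiv_primary
    (y : Hsm ((basisS S).comap V.subtype) (Rep.res V.subtype (CSrep S)) 2)
    (hy : ∃ m : ℕ, p ^ m • y = 0) :
    ∃ z : Hsm ((basisS S).comap V.subtype) (Rep.res V.subtype (CSrep S)) 2,
      (∃ m : ℕ, p ^ m • z = 0) ∧ p • z = y := by
  haveI : Finite (GQ ⧸ V) := finite_quot_of_isOpen hV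
  haveI : Fintype (GQ ⧸ V) := Fintype.ofFinite _
  exact (cmp_isPIso V.subtype hpS 2).pdiv_primary hp.out
    (fun y' hy' => pdiv_primary (baseData_CSfull S hp2 hpS hζ V hV hVζ) y' hy') y hy

/-- **`p`-primary classes of `H²(V, C_S)` are restrictions of `p`-primary classes of `H²(G_ℚ, C_S)`** -/
theorem H2_CSrep_exists_res
    (y : Hsm ((basisS S).comap V.subtype) (Rep.res V.subtype (CSrep S)) 2)
    (hy : ∃ m : ℕ, p ^ m • y = 0) :
    ∃ x : Hsm (basisS S) (CSrep S) 2, (∃ m : ℕ, p ^ m • x = 0) ∧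
      (resHom (basisS S) V (CSrep S)).mapH 2 x = y := by
  obtain ⟨m, hm⟩ := hy
  obtain ⟨x', ⟨m', hm'⟩, hx'⟩ := (cfData_CSfull S hp2 hpS hζ V hV hVζ).cf2_surj V hV le_rfl
    ((Csm.map ((basisS S).comap V.subtype) (Rep.resMap V.subtype (cmp S))).mapH 2 y)
    ⟨m, by rw [← map_nsmul, hm, map_zero]⟩
  obtain ⟨x, hx, hxx'⟩ := (cmp_isPIso_top S hpS 2).exists_primary hp.out hm'
  refine ⟨x, ⟨m', hx⟩, ?_⟩
  have hnat : (Csm.map ((basisS S).comap V.subtype) (Rep.resMap V.subtype (cmp S))).mapH 2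
      ((resHom (basisS S) V (CSrep S)).mapH 2 x) =
      (resHom (basisS S) V (CSfull S)).mapH 2 ((Csm.map (basisS S) (cmp S)).mapH 2 x) :=
    (Csm.mapG_natural_mapH ((basisS S).isCont_comap V.subtype) (𝟙 _) (𝟙 _) (cmp S)
      (Rep.resMap V.subtype (cmp S)) (fun _ => rfl) 2 x).symm
  have h1 : (resHom (basisS S) V (CSrep S)).mapH 2 x - y = 0 := by
    apply (cmp_isPIso V.subtype hpS 2).eq_zero_of_primary hp.out ⟨m' + m, ?_⟩
    · show (Csm.map ((basisS S).comap V.subtype) (Rep.resMap V.subtype (cmp S))).mapH 2 _ = 0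
      rw [map_sub, hnat]
      have : (Csm.map (basisS S) (cmp S)).mapH 2 x = x' := hxx'
      rw [this, hx']
      exact sub_self _
    · have e1 : p ^ (m' + m) • (resHom (basisS S) V (CSrep S)).mapH 2 x =
          p ^ m • (resHom (basisS S) V (CSrep S)).mapH 2 (p ^ m' • x) := by
        rw [map_nsmul, pow_add, mul_comm, mul_smul]
      have e2 : p ^ (m' + m) • y = p ^ m' • (p ^ m • y) := by rw [pow_add, mul_smul]
      rw [smul_sub, e1, e2, hx, hm, map_zero, smul_zero, smul_zero, sub_self]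
  exact sub_eq_zero.1 h1

end H2V

end Fermat.Agent.S56lib.PT9
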