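/-
S56lib / PT9 / H2EndUncond  (helper8).

The `H²`-end of Poitou–Tate, UNCONDITIONAL: `PT9.h2End` with its hypothesis `HΦ2` discharged by
helper7's `PT.PhiJ_H2_surjective` (`S56lib/PT9a/PhiJ2`).
-/
import Fermat.Agent.S56lib.PT9.H2EndFinal
import Fermat.Agent.S56lib.PT9a.PhiJ2

set_option autoImplicit false

noncomputable section

namespace Fermat.Agent.S56lib.PT9

open Fermat.Agent.S55lib Fermat.Agent.S55lib.Cpx Fermat.Agent.S55lib.CFDual
  groupCohomology ExtCitation CategoryTheory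

/-- Shapiro in degree 2 for `Ext²(R, J_S)` (helper7) -/
theorem hΦ2 {p : ℕ} [hp : Fact p.Prime] (hp2 : p ≠ 2) (S : Finset Nat.Primes)
    (hpS : (⟨p, hp.out⟩ : Nat.Primes) ∈ S)
    (M : Rep.{0} (ZMod p) GQ) [FiniteDimensional (ZMod p) M]
    (hM : Sm.IsSmooth (MonoidHom.id GQ) (LevelClass.unr S) M) : HΦ2 S hpS M hM :=
  PT.PhiJ_H2_surjective S hpS M hM hp2

/-- **The `H²`-end of the Poitou–Tate sequence, unconditional** (`p` odd, `S ∋ p`, `M` a finite
`𝔽_p[G_ℚ]`-module unramified outside `S`): there is a surjective `𝔽_p`-linear map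
`b : ∏_{q ∈ S} H²(G_q, M) → H⁰(G_ℚ, M^∨(1))^∨` whose kernel is the image of `H²(G_S, M)`. -/
theorem h2End' {p : ℕ} [hp : Fact p.Prime] (hp2 : p ≠ 2) (S : Finset Nat.Primes)
    (hpS : (⟨p, hp.out⟩ : Nat.Primes) ∈ S)
    (M : Rep.{0} (ZMod p) GQ) [FiniteDimensional (ZMod p) M]
    (hM : Sm.IsSmooth (MonoidHom.id GQ) (LevelClass.unr S) M) :
    ∃ b : H2locAll S M →ₗ[ZMod p] Module.Dual (ZMod p) (D0 M), Function.Surjective b ∧
      LinearMap.range (locAll2 S M) = LinearMap.ker b :=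
  h2End hp2 S hpS M hM (hΦ2 hp2 S hpS M hM)

end Fermat.Agent.S56lib.PT9
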