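/-
S56lib / PT9 / H3Les  (helper8).

The abstract Poitou–Tate sequence one more step: **`H³(G, Hom(N, E)) = 0`** as soon as
`Ext²(d, J) → Ext²(d, C)` is surjective and the *coarse* local groups `Ext³(res d, Y i)` (for the
induced topologies `𝒰.comap (r i)`) vanish.  Ingredients: exactness of the long exact `Ext`
sequence at `Ext³(d, E)`, and Shapiro's lemma on `Ext³` (injectivity, from `sh_H2_surjective`
(helper7), `sh_H2_injective`, `sh_H3_injective`).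
-/
import Fermat.Agent.S56lib.PT9.FiveTerm
import Fermat.Agent.S56lib.PT9a.Shapiro2S

set_option autoImplicit false
set_option linter.unusedSectionVars false

noncomputable section

namespace Fermat.Agent.S56lib.PT9

universe u

open Fermat.Agent.S55lib Fermat.Agent.S55lib.Csm Fermat.Agent.S55lib.Cpx
  Fermat.Agent.S55lib.CFDual

variable {k G : Type u} [CommRing k] [Group G] {𝒰 : OpenBasis G} {I : Type u}
  {D : I → Type u} [∀ i, Group (D i)] {r : ∀ i, D i →* G} {Y : ∀ i, Rep.{u} k (D i)}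
  {J : Rep.{u} k G} (S : SmCoind 𝒰 D r Y J)
  {E C : Rep.{u} k G} (ι : E ⟶ J) (π : J ⟶ C)
  {N P0 P1 : Rep.{u} k G} [Module.Finite k P0] [Module.Finite k P1]
  (hP0 : IsSm 𝒰 P0) (hP1 : IsSm 𝒰 P1) (d : P1 ⟶ P0) (q : P0 ⟶ N)
  [Finite I]

/-- Shapiro on `Ext³`: injectivity of the product map -/
theorem extShPi_H3_injective : Function.Injective ((S.extShPi hP0 hP1 d).mapH 3) := by
  refine Cpx.Fib.map_mapH_injective_succ _ _ _ 2 ?_ ?_ ?_
  · exact Cpx.Hom.pi_mapH_surjective _ 2 (S.hom P0 hP0).sh_H2_surjective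
  · exact Cpx.Hom.pi_mapH_injective _ 2 (S.hom P1 hP1).sh_H2_injective
  · exact Cpx.Hom.pi_mapH_injective _ 3 (S.hom P0 hP0).sh_H3_injective

/-- `Ext³(d, J) → ∏ Ext³(res d, Y i)` is injective -/
theorem extSh_H3_injective (x : (ExtC 𝒰 d J).H 3)
    (h : ∀ i, (S.extSh hP0 hP1 d i).mapH 3 x = 0) : x = 0 := by
  apply extShPi_H3_injective S hP0 hP1 d
  rw [map_zero]
  refine Cpx.Fib.eq_zero_of_piProj _ 3 _ fun i => ?_
  rw [SmCoind.piProj_extShPi]
  exact h i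

section vanishing

variable [Module.Projective k P0] [Module.Projective k P1]
  (hι : Function.Injective ι.hom) (hπ : Function.Surjective π.hom)
  (hex : ∀ b : J, π.hom b = 0 ↔ ∃ a, ι.hom a = b)
  (hqs : Function.Surjective q.hom) (hqex : ∀ x : P0, q.hom x = 0 ↔ ∃ y, d.hom y = x)
  (hE : IsSm 𝒰 E) (hextE : Function.Surjective (homRep.mapL d E).hom)

include S hP0 hP1 hι hπ hex in
/-- `Ext³(d, E) = 0` -/
theorem ext3E_eq_zero
    (hsurj : ∀ ξ : (ExtC 𝒰 d C).H 2, ∃ η : (ExtC 𝒰 d J).H 2, (ExtC.mapR 𝒰 d π).mapH 2 η = ξ)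
    (hloc : ∀ i, ∀ y : (ExtC (𝒰.comap (r i)) (resHom (r i) d) (Y i)).H 3, y = 0)
    (ε : (ExtC 𝒰 d E).H 3) : ε = 0 := by
  have hses := FourTerm.ses S ι π hP0 hP1 d hι hπ hex
  have h1 : (ExtC.mapR 𝒰 d ι).mapH 3 ε = 0 :=
    extSh_H3_injective S hP0 hP1 d _ fun i => hloc i _
  obtain ⟨ξ, rfl⟩ := (hses.exact_left 2 ε).1 h1
  obtain ⟨η, rfl⟩ := hsurj ξ
  exact hses.δ_comp_mapH 2 η

include S hP0 hP1 hι hπ hex hqs hqex hE hextE in
/-- **`H³(G, Hom(N, E)) = 0`** -/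
theorem H3_eq_zero
    (hsurj : ∀ ξ : (ExtC 𝒰 d C).H 2, ∃ η : (ExtC 𝒰 d J).H 2, (ExtC.mapR 𝒰 d π).mapH 2 η = ξ)
    (hloc : ∀ i, ∀ y : (ExtC (𝒰.comap (r i)) (resHom (r i) d) (Y i)).H 3, y = 0)
    (x : (Csm 𝒰 (homRep N E)).H 3) : x = 0 := by
  apply (FourTerm.ocE_bijective hP0 d q hqs hqex hE hextE 3).1
  rw [map_zero]
  exact ext3E_eq_zero S ι π hP0 hP1 d hι hπ hex hsurj hloc _

end vanishing

end Fermat.Agent.S56lib.PT9
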