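/-
S56lib / PT9 / H3Final  (helper8).

**`cd_p(G_S) ≤ 2`** (`p` odd, `p ∈ S`): `H³(G_S, M) = 0` for every finite `𝔽_p[G_ℚ]`-module `M` unramified
outside `S` (`PT9.h3_eq_zero`).  Proof: the long exact `Ext(M′, −)` sequence of `0 → E_S → J_S → C_S → 0`
one step beyond the `H²`-end of Poitou–Tate (`PT9/H3Les`): `a² : Ext²(M′, J_S) → Ext²(M′, C_S)` is onto
(`PT9.a2glob_surjective`), so `Ext³(M′, E_S) ↪ Ext³(M′, J_S) ↪ ∏_q Ext³_{G_S-top}(res_q M′, ℚ̄_qˣ)`, and the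
last groups vanish (`PT9.ext3_coarse_loc`, from `PT9/CoarseBase` and helper7's `PT9a/LocIndex`).
-/
import Fermat.Agent.S56lib.PT9.CoarseBase
import Fermat.Agent.S56lib.PT9.H3Les
import Fermat.Agent.S56lib.PT9.H2EndUncond

set_option autoImplicit false
set_option linter.unusedSectionVars false
set_option linter.style.haveILetI false

open scoped IntermediateField

noncomputable section

namespace Fermat.Agent.S56lib.PT9

open Fermat.Agent.S55lib Fermat.Agent.S55lib.Cpx Fermat.Agent.S55lib.CFDual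
  Fermat.Agent.S55lib.LocalUnr groupCohomology ExtCitation CategoryTheory

/-- an automorphism fixing `ζ` fixes `K₀(ζ)` -/
lemma mem_fixingSubgroup_adjoin_simple {K₀ Ω : Type} [Field K₀] [Field Ω] [Algebra K₀ Ω]
    (σ : Ω ≃ₐ[K₀] Ω) {ζ : Ω} (h : σ ζ = ζ) : σ ∈ (K₀⟮ζ⟯).fixingSubgroup := by
  rw [IntermediateField.mem_fixingSubgroup_iff]
  intro x hx
  induction hx using IntermediateField.adjoin_induction with
  | mem x hx => rw [Set.mem_singleton_iff.1 hx, h]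
  | algebraMap x => exact σ.commutes x
  | add x y _ _ hx hy => rw [map_add, hx, hy]
  | inv x _ hx => rw [map_inv₀, hx]
  | mul x y _ _ hx hy => rw [map_mul, hx, hy]

variable (S : Finset Nat.Primes) {p : ℕ} [hp : Fact p.Prime]

/-- **the local `Ext³` for the topology of `G_S` vanishes** -/
theorem ext3_coarse_loc (hp2 : p ≠ 2) (hpS : (⟨p, hp.out⟩ : Nat.Primes) ∈ S) (q : Nat.Primes)
    (P0 P1 : Rep.{0} ℤ (Gloc q)) [Module.Finite ℤ P0] [Module.Free ℤ P0]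
    [Module.Finite ℤ P1] [Module.Free ℤ P1] (hsm0 : IsSm ((basisS S).comap (rloc q)) P0)
    (hsm1 : IsSm ((basisS S).comap (rloc q)) P1) (d : P1 ⟶ P0)
    (hinj : Function.Injective d.hom) (hdiv : ∀ x : P0, ∃ y : P1, d.hom y = p • x)
    (x : ExtH ((basisS S).comap (rloc q)) d (Yloc q) 3) : x = 0 := by
  letI := galBasisLevel q
  obtain ⟨ζ, W₁, hζ, hW₁, hfixζ⟩ := S56lib.PT9a.exists_open_fixing_zeta S q hpS
  have hζo : ((basisS S).comap (rloc q)).IsOpen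
      ((ℚ_[(q : ℕ)]⟮ζ⟯).fixingSubgroup : Subgroup (PadicAlgCl (q : ℕ) ≃ₐ[ℚ_[(q : ℕ)]] PadicAlgCl (q : ℕ))) :=
    ⟨W₁.comap (rloc q), (basisS S).comap_mem_comap (rloc q) hW₁, fun v hv =>
      mem_fixingSubgroup_adjoin_simple _ (hfixζ v hv)⟩
  exact ext3_tower_eq_zero (K₀ := ℚ_[(q : ℕ)]) (Ω := PadicAlgCl (q : ℕ))
    ((basisS S).comap (rloc q)) (coarser_basisLoc S q) p
    (S56lib.PT9a.exists_index_dvd q S hp2 hpS) hζ hζo P0 P1 hsm0 hsm1 d hinj hdiv x

variable (hpS : (⟨p, hp.out⟩ : Nat.Primes) ∈ S)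
  (M : Rep.{0} (ZMod p) GQ) [FiniteDimensional (ZMod p) M]
  (hM : Sm.IsSmooth (MonoidHom.id GQ) (LevelClass.unr S) M)

include hpS hM in
/-- **`H³(G_S, Hom(M′, E_S)) = 0`** -/
theorem h3_twist_eq_zero (hp2 : p ≠ 2)
    (x : (Csm (basisS S) (homRep (PT.N M) (ESrep S))).H 3) : x = 0 := by
  have hΦ := hΦ2 hp2 S hpS M hM
  have hT := Dev.card_torsion_le_top hp2 hpS
    (Dev.topClassStatement_of_fundClass (Recip.fundClassStatement hp2) ⟨_, hpS⟩)
  have hIII := PT.hIII hp2 S hpS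
  have hK4 := Dev.k4_global_of_fundClass hp2 hpS (Recip.fundClassStatement hp2)
  obtain ⟨I⟩ := PT.nonempty_invData S hT (fun q => PT.exists_ne_zero_loc q.1 p) hIII ⟨_, hpS⟩
  have ha2 := a2glob_surjective S hpS M hM I hK4 (fun q => LocalH.k4Statement_loc q.1 p) hΦ
  refine H3_eq_zero (jsCoind S) (iES S) (pCS S) (PT.R S hpS M hM).sm0 (PT.R S hpS M hM).sm1
    (PT.R S hpS M hM).d (PT.R S hpS M hM).q (iES_injective S ⟨_, hpS⟩) (pCS_surjective S)
    (pCS_eq_zero_iff S) (PT.R S hpS M hM).q_surj (PT.R S hpS M hM).exact (isSm_ESrep S)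
    (PT.hextE S hpS M hM) ?_ ?_ x
  · intro ξ
    obtain ⟨y, rfl⟩ := ha2 ξ
    obtain ⟨η, -, hη⟩ := exists_of_a2Fun (jsCoind S) (PT.hco S) (pCS S)
      (PT.R S hpS M hM).sm0 (PT.R S hpS M hM).sm1 (PT.R S hpS M hM).d (PT.R S hpS M hM).q
      (PT.hqd S hpS M hM) (fun q => h90_hom S q.1 (PT.R S hpS M hM)) hΦ
      (fun q => e2 S hpS M hM q (y q))
    exact ⟨η, hη.symm⟩
  · intro q y
    have f0 : @Module.Finite ℤ (Rep.res (rloc q.1) (PT.R S hpS M hM).P0) _ _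
        (Rep.res (rloc q.1) (PT.R S hpS M hM).P0).hV2 := (PT.R S hpS M hM).fin0
    have f1 : @Module.Finite ℤ (Rep.res (rloc q.1) (PT.R S hpS M hM).P1) _ _
        (Rep.res (rloc q.1) (PT.R S hpS M hM).P1).hV2 := (PT.R S hpS M hM).fin1
    have g0 : @Module.Free ℤ (Rep.res (rloc q.1) (PT.R S hpS M hM).P0) _ _
        (Rep.res (rloc q.1) (PT.R S hpS M hM).P0).hV2 := (PT.R S hpS M hM).free0
    have g1 : @Module.Free ℤ (Rep.res (rloc q.1) (PT.R S hpS M hM).P1) _ _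
        (Rep.res (rloc q.1) (PT.R S hpS M hM).P1).hV2 := (PT.R S hpS M hM).free1
    have i0 := PT.finite_toInt _ f0
    have i1 := PT.finite_toInt _ f1
    have j0 := PT.free_toInt _ g0
    have j1 := PT.free_toInt _ g1
    have hs0 : IsSm ((basisS S).comap (rloc q.1)) (Rep.res (rloc q.1) (PT.R S hpS M hM).P0) :=
      fun a => by
        obtain ⟨U, hU, h⟩ := (PT.R S hpS M hM).sm0 a
        exact ⟨_, (basisS S).comap_mem_comap (rloc q.1) hU, fun s hs => h (rloc q.1 s) hs⟩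
    have hs1 : IsSm ((basisS S).comap (rloc q.1)) (Rep.res (rloc q.1) (PT.R S hpS M hM).P1) :=
      fun a => by
        obtain ⟨U, hU, h⟩ := (PT.R S hpS M hM).sm1 a
        exact ⟨_, (basisS S).comap_mem_comap (rloc q.1) hU, fun s hs => h (rloc q.1 s) hs⟩
    exact ext3_coarse_loc S hp2 hpS q.1 _ _ hs0 hs1 (resHom (rloc q.1) (PT.R S hpS M hM).d)
      (PT.R S hpS M hM).d_inj (PT.R_pdiv S hpS M hM) y

include hpS hM in
/-- **`H³(G_S, M) = 0`**: the `p`-cohomological dimension of `G_S` is at most `2` (`p` odd, `p ∈ S`). -/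
theorem h3_eq_zero (hp2 : p ≠ 2) (x : (Csm (basisS S) (toIntRep M)).H 3) : x = 0 := by
  apply (Cpx.Hom.mapH_bijective_of_bijective _
    (Csm.map_bijective (basisS S) _ (globTwist_bijective S hpS M)) 3).1
  rw [map_zero]
  exact h3_twist_eq_zero S hpS M hM hp2 _

end Fermat.Agent.S56lib.PT9
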