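/-
S56lib / PT9 / CoarseTower  (helper8).

**A sub-tower of the local formation.**  `Ω/K₀` Galois with its Krull basis `basis K₀ Ω`, and a coarser
basis `𝒲` of open normal subgroups (in the application `K₀ = ℚ_q`, `Ω = ℚ̄_q`, `𝒲` = the topology induced
from `G_S`, i.e. the tower of the local fields `ℚ_q · F`, `F ⊂ ℚ_S`).  For a `𝒲`-open `Gal(Ω/E)` the
`𝒲`-smooth cohomology of `Gal(Ω/E)` in `Ωˣ` is the colimit over the *coarse* finite levels (`IsCLevel`):
exhaustion (`exists_inflHc_eq`), compatibility (`inflHc_infT`), and vanishing at a finite level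
(`exists_infT_eq_zero_c`) — the coarse analogue of helper3's `LocalUnr/Formation`.
-/
import Fermat.Agent.S55lib.LocalH.SmInv
import Fermat.Agent.S55lib.LocalH.SmRes
import Fermat.Agent.S55lib.Cpx.InfRes

set_option autoImplicit false
set_option linter.unusedSectionVars false
set_option linter.style.haveILetI false

noncomputable section

namespace Fermat.Agent.S56lib.PT9

open groupCohomology CategoryTheory Rep Fermat.Agent.S55lib Fermat.Agent.S55lib.LocalUnr
  Fermat.Agent.S55lib.LocalH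

section Plain

variable {K₀ Ω : Type} [Field K₀] [Field Ω] [Algebra K₀ Ω] [IsGalois K₀ Ω] [GalBasis K₀ Ω]
  (𝒲 : OpenBasis (Ω ≃ₐ[K₀] Ω)) (E : IntermediateField K₀ Ω) [FiniteDimensional K₀ E]

/-- the coarse basis on `Gal(Ω/E)` -/
abbrev cBasis : OpenBasis ↥E.fixingSubgroup := 𝒲.comap E.fixingSubgroup.subtype

/-- a finite Galois level `F/E` of the coarse tower: the kernel of `Gal(Ω/E) → Gal(F/E)` is
`𝒲`-open -/
def IsCLevel (F : IntermediateField E Ω) [Normal E F] : Prop :=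
  ∃ U ∈ (cBasis 𝒲 E).sets, U ≤ (resV E F).ker

variable {𝒲 E}

/-- an element of `Gal(Ω/E)` fixing `F₁` and `F₂` fixes `F₁ ⊔ F₂` -/
lemma mem_ker_resV_sup (F₁ F₂ : FiniteGaloisIntermediateField E Ω) (σ : ↥E.fixingSubgroup)
    (h₁ : σ ∈ (resV E F₁.toIntermediateField).ker) (h₂ : σ ∈ (resV E F₂.toIntermediateField).ker) :
    σ ∈ (resV E (F₁ ⊔ F₂).toIntermediateField).ker := by
  rw [mem_ker_resV_iff] at h₁ h₂ ⊢
  let τ : Ω ≃ₐ[E] Ω := IntermediateField.fixingSubgroupEquiv E σ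
  have hτ : ∀ w : Ω, τ w = (σ : Ω ≃ₐ[K₀] Ω) w := fun _ => rfl
  have hmem : τ ∈ (F₁.toIntermediateField ⊔ F₂.toIntermediateField).fixingSubgroup := by
    rw [IntermediateField.fixingSubgroup_sup]
    refine Subgroup.mem_inf.2 ⟨?_, ?_⟩
    · rw [IntermediateField.mem_fixingSubgroup_iff]
      intro x hx
      exact h₁ ⟨x, hx⟩
    · rw [IntermediateField.mem_fixingSubgroup_iff]
      intro x hx
      exact h₂ ⟨x, hx⟩
  intro x
  have := (IntermediateField.mem_fixingSubgroup_iff _ _).1 hmem (x : Ω) x.2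
  exact this

lemma ker_resV_mono {F₁ F₂ : FiniteGaloisIntermediateField E Ω} (h : F₁ ≤ F₂) :
    (resV E F₂.toIntermediateField).ker ≤ (resV E F₁.toIntermediateField).ker := by
  intro σ hσ
  rw [mem_ker_resV_iff] at hσ ⊢
  intro x
  exact hσ ⟨x, h x.2⟩

lemma IsCLevel.sup {F₁ F₂ : FiniteGaloisIntermediateField E Ω}
    (h₁ : IsCLevel 𝒲 E F₁.toIntermediateField) (h₂ : IsCLevel 𝒲 E F₂.toIntermediateField) :
    IsCLevel 𝒲 E (F₁ ⊔ F₂).toIntermediateField := by
  obtain ⟨U₁, hU₁, hk₁⟩ := h₁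
  obtain ⟨U₂, hU₂, hk₂⟩ := h₂
  obtain ⟨U, hU, hle⟩ := (cBasis 𝒲 E).directed U₁ hU₁ U₂ hU₂
  exact ⟨U, hU, fun σ hσ => mem_ker_resV_sup F₁ F₂ σ (hk₁ ((hle.trans inf_le_left) hσ))
    (hk₂ ((hle.trans inf_le_right) hσ))⟩

lemma isCLevel_bot : IsCLevel 𝒲 E (⊥ : FiniteGaloisIntermediateField E Ω).toIntermediateField := by
  obtain ⟨U, hU⟩ := (cBasis 𝒲 E).nonempty
  refine ⟨U, hU, fun σ _ => ?_⟩
  rw [mem_ker_resV_iff]
  intro x
  obtain ⟨e, he⟩ := IntermediateField.mem_bot.1 x.2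
  rw [← he]
  exact (IntermediateField.fixingSubgroupEquiv E σ).commutes e

/-- **Coarse levels are cofinal**: every `𝒲`-open subgroup contains the kernel of the restriction to a
coarse level `F/E`, which may be chosen above a given coarse level; moreover `[Gal(Ω/K₀) : W]` divides
`[E : K₀][F : E]` for some `W ∈ 𝒲` inside the given subgroup. -/
theorem exists_clevel (hco : Csm.Coarser 𝒲 (basis K₀ Ω)) (hE : 𝒲.IsOpen E.fixingSubgroup)
    (F₀ : FiniteGaloisIntermediateField E Ω) (hF₀ : IsCLevel 𝒲 E F₀.toIntermediateField)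
    {U' : Subgroup (Ω ≃ₐ[K₀] Ω)} (hU' : 𝒲.IsOpen U') :
    ∃ F : FiniteGaloisIntermediateField E Ω, F₀ ≤ F ∧ IsCLevel 𝒲 E F.toIntermediateField ∧
      (resV E F.toIntermediateField).ker ≤ U'.comap E.fixingSubgroup.subtype ∧
      ∃ W ∈ 𝒲.sets, W ≤ U' ∧
        W.index ∣ Module.finrank K₀ E * Module.finrank E F.toIntermediateField := by
  obtain ⟨V₁, hV₁, hV₁E⟩ := hE
  obtain ⟨U₁, hU₁, hU₁U'⟩ := hU'
  obtain ⟨W, hW, hle⟩ := 𝒲.directed U₁ hU₁ V₁ hV₁
  have hWU' : W ≤ U' := (hle.trans inf_le_left).trans hU₁U'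
  have hWE : W ≤ E.fixingSubgroup := (hle.trans inf_le_right).trans hV₁E
  obtain ⟨B, hB, hBW⟩ := hco W hW
  obtain ⟨N₀, hfd, hWN⟩ := exists_eq_fixingSubgroup_of_isOpen (basis K₀ Ω) ⟨B, hB, hBW⟩
  haveI := hfd
  haveI : IsGalois K₀ N₀ := (InfiniteGalois.normal_iff_isGalois N₀).1 (hWN ▸ 𝒲.normal W hW)
  have hEN : E ≤ N₀ := fun x hx => mem_of_fixed N₀ fun v hv => by
    have hv' : v ∈ E.fixingSubgroup := hWE (hWN ▸ hv)
    exact (IntermediateField.mem_fixingSubgroup_iff _ _).1 hv' x hx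
  haveI : Fact (E ≤ N₀) := ⟨hEN⟩
  haveI : IsGalois E N₀ := IsGalois.tower_top_of_isGalois K₀ E N₀
  let FN : FiniteGaloisIntermediateField E Ω :=
    { toIntermediateField := towerOf E N₀
      finiteDimensional := finiteDimensional_towerOf E N₀
      isGalois := isGalois_towerOf E N₀ }
  have hmemFN : ∀ x : Ω, x ∈ FN.toIntermediateField ↔ x ∈ N₀ := fun _ => Iff.rfl
  -- the kernel of the restriction to `FN` is `W`
  have hkerFN : ∀ σ : ↥E.fixingSubgroup,
      σ ∈ (resV E FN.toIntermediateField).ker ↔ (σ : Ω ≃ₐ[K₀] Ω) ∈ W := by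
    intro σ
    rw [mem_ker_resV_iff, hWN, IntermediateField.mem_fixingSubgroup_iff]
    constructor
    · intro h x hx
      exact h ⟨x, (hmemFN x).2 hx⟩
    · intro h x
      exact h x ((hmemFN x).1 x.2)
  refine ⟨F₀ ⊔ FN, le_sup_left, IsCLevel.sup hF₀ ?_, ?_, W, hW, hWU', ?_⟩
  · exact ⟨_, ⟨W, hW, rfl⟩, fun σ hσ => (hkerFN σ).2 hσ⟩
  · intro σ hσ
    have h1 := ker_resV_mono (le_sup_right : FN ≤ F₀ ⊔ FN) hσ
    exact hWU' ((hkerFN σ).1 h1)
  · have h1 : W.index = Module.finrank K₀ N₀ := by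
      rw [hWN, IntermediateField.finrank_eq_fixingSubgroup_index]
    have h2 : Module.finrank K₀ E * Module.finrank E N₀ = Module.finrank K₀ N₀ :=
      finrank_base_mul_finrank_ofLE E N₀
    have h3 : Module.finrank E N₀ = Module.finrank E FN.toIntermediateField := rfl
    have h4 : Module.finrank E FN.toIntermediateField ∣
        Module.finrank E (F₀ ⊔ FN).toIntermediateField :=
      IntermediateField.finrank_dvd_of_le_right (le_sup_right : FN ≤ F₀ ⊔ FN)
    rw [h1, ← h2, h3]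
    exact Nat.mul_dvd_mul_left _ h4

/-- the coarse basis of `Gal(Ω/E)` is coarser than the Krull basis -/
lemma coarser_cBasis (hco : Csm.Coarser 𝒲 (basis K₀ Ω)) :
    Csm.Coarser (cBasis 𝒲 E) (subBasis E) := by
  rintro _ ⟨U, hU, rfl⟩
  obtain ⟨B, hB, hBU⟩ := hco U hU
  exact ⟨_, ⟨B, hB, rfl⟩, Subgroup.comap_mono hBU⟩

section Infl

variable (𝒲 E) (F : IntermediateField E Ω) [FiniteDimensional E F] [IsGalois E F]

theorem inflFun_mem_smC_c (hF : IsCLevel 𝒲 E F) (n : ℕ)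
    (x : (Fin n → (F ≃ₐ[E] F)) → Rep.ofAlgebraAutOnUnits E F) :
    ((cochainsMap (resV E F) (unitsIncl E F)).f n).hom x ∈ smC (cBasis 𝒲 E) (subRep E) n := by
  obtain ⟨U, hU, hUker⟩ := hF
  refine ⟨U, hU, fun g s hs => ?_, fun g s hs => ?_⟩
  · show (unitsIncl E F).hom (x (resV E F ∘ (g * s))) = (unitsIncl E F).hom (x (resV E F ∘ g))
    have : resV E F ∘ (g * s) = resV E F ∘ g := by
      funext i
      have h1 : resV E F (s i) = 1 := MonoidHom.mem_ker.mp (hUker (hs i))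
      simp [h1]
    rw [this]
  · show (subRep E).ρ s ((unitsIncl E F).hom (x (resV E F ∘ g))) =
      (unitsIncl E F).hom (x (resV E F ∘ g))
    rw [← Rep.hom_comm_apply]
    have h1 : resV E F s = 1 := MonoidHom.mem_ker.mp (hUker hs)
    show (unitsIncl E F).hom ((Rep.ofAlgebraAutOnUnits E F).ρ (resV E F s) _) = _
    rw [h1, map_one]
    rfl

/-- inflation of cochains from a coarse finite level to the `𝒲`-smooth cochains of `Gal(Ω/E)` -/
def inflVc (hF : IsCLevel 𝒲 E F) :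
    Cpx.Hom (Call (Rep.ofAlgebraAutOnUnits E F)) (Csm (cBasis 𝒲 E) (subRep E)) where
  f := fun n => (((cochainsMap (resV E F) (unitsIncl E F)).f n).hom).codRestrict
    (smC (cBasis 𝒲 E) (subRep E) n) (inflFun_mem_smC_c 𝒲 E F hF n)
  comm := by
    intro n x
    apply Subtype.ext
    have := (cochainsMap (resV E F) (unitsIncl E F)).comm n (n + 1)
    simp only [CochainComplex.of_d] at this
    have h := congrArg (fun ψ => ψ.hom x) this
    exact h.symm

theorem inflVc_val (hF : IsCLevel 𝒲 E F) (n : ℕ) (x : (Call (Rep.ofAlgebraAutOnUnits E F)).X n) :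
    ((inflVc 𝒲 E F hF).f n x).1 = ((inflV E F).f n x).1 := rfl

theorem inflVc_injective (hF : IsCLevel 𝒲 E F) (n : ℕ) :
    Function.Injective ((inflVc 𝒲 E F hF).f n) := by
  intro x y hxy
  apply inflV_injective E F n
  apply Subtype.ext
  rw [← inflVc_val 𝒲 E F hF, ← inflVc_val 𝒲 E F hF, hxy]

end Infl

/-- **Exhaustion.**  Every `𝒲`-smooth cochain of `Gal(Ω/E)` with values in `Ωˣ` is inflated from a coarse
finite level, which may be chosen above a given one. -/
theorem exists_inflVc_eq (hco : Csm.Coarser 𝒲 (basis K₀ Ω)) (hE : 𝒲.IsOpen E.fixingSubgroup)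
    (F₀ : FiniteGaloisIntermediateField E Ω) (hF₀ : IsCLevel 𝒲 E F₀.toIntermediateField) {n : ℕ}
    (x : (Csm (cBasis 𝒲 E) (subRep E)).X n) :
    ∃ (F : FiniteGaloisIntermediateField E Ω) (_ : F₀ ≤ F)
      (hF : IsCLevel 𝒲 E F.toIntermediateField)
      (y : (Call (Rep.ofAlgebraAutOnUnits E F.toIntermediateField)).X n),
      (inflVc 𝒲 E F.toIntermediateField hF).f n y = x := by
  obtain ⟨_, ⟨U', hU', rfl⟩, hinv, hfix⟩ := x.2
  obtain ⟨F, hF₀F, hF, hker, -⟩ := exists_clevel hco hE F₀ hF₀ (U' := U') ⟨U', hU', le_rfl⟩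
  obtain ⟨y, hy⟩ := exists_inflV_eq_of_ker_le E F.toIntermediateField
    ((Csm.coarsen (coarser_cBasis hco) (subRep E)).f n x) hker hinv hfix
  refine ⟨F, hF₀F, hF, y, ?_⟩
  apply Subtype.ext
  rw [inflVc_val, hy]
  rfl

/-- compatibility with inflation between finite levels -/
theorem inflVc_galInfC (F F' : FiniteGaloisIntermediateField E Ω) (h : F ≤ F')
    (hF : IsCLevel 𝒲 E F.toIntermediateField) (hF' : IsCLevel 𝒲 E F'.toIntermediateField) (n : ℕ)
    (y : (Call (Rep.ofAlgebraAutOnUnits E F.toIntermediateField)).X n) :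
    (inflVc 𝒲 E F'.toIntermediateField hF').f n
      ((galInfC E F.toIntermediateField F'.toIntermediateField h).f n y) =
      (inflVc 𝒲 E F.toIntermediateField hF).f n y := by
  apply Subtype.ext
  rw [inflVc_val, inflVc_val, inflV_galInfC]

end Plain

section Coh

variable {K₀ Ω : Type} [NontriviallyNormedField K₀] [IsUltrametricDist K₀] [ProperSpace K₀]
  [NormedField Ω] [NormedAlgebra K₀ Ω] [IsUltrametricDist Ω] [Algebra.IsIntegral K₀ Ω]
  [HasUnitRoots K₀ Ω] [IsGalois K₀ Ω] [GalBasis K₀ Ω]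
  (𝒲 : OpenBasis (Ω ≃ₐ[K₀] Ω)) (E : IntermediateField K₀ Ω) [FiniteDimensional K₀ E]

/-- the comparison map `Hⁿ(Gal(F/E), Fˣ) → Hⁿ_𝒲(Gal(Ω/E), Ωˣ)` for a coarse level `F` -/
def inflHc (F : FiniteGaloisIntermediateField E Ω) (hF : IsCLevel 𝒲 E F.toIntermediateField)
    (n : ℕ) : groupCohomology (Rep.ofAlgebraAutOnUnits E F.toIntermediateField) n →+
      Hsm (cBasis 𝒲 E) (subRep E) n :=
  ((inflVc 𝒲 E F.toIntermediateField hF).mapH n).toAddMonoidHom.comp
    (Call.toGC (Rep.ofAlgebraAutOnUnits E F.toIntermediateField) n).symm.toAddEquiv.toAddMonoidHom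

theorem inflHc_toGC_cl (F : FiniteGaloisIntermediateField E Ω)
    (hF : IsCLevel 𝒲 E F.toIntermediateField) {n : ℕ}
    (z : (Call (Rep.ofAlgebraAutOnUnits E F.toIntermediateField)).X n)
    (hz : (Call (Rep.ofAlgebraAutOnUnits E F.toIntermediateField)).d n z = 0) :
    inflHc 𝒲 E F hF n (Call.toGC _ n
      ((Call (Rep.ofAlgebraAutOnUnits E F.toIntermediateField)).cl z hz)) =
      (Csm (cBasis 𝒲 E) (subRep E)).cl ((inflVc 𝒲 E F.toIntermediateField hF).f n z)
        ((inflVc 𝒲 E F.toIntermediateField hF).map_Z n hz) := by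
  unfold inflHc
  have h1 : (Call.toGC (Rep.ofAlgebraAutOnUnits E F.toIntermediateField) n).symm
      (Call.toGC _ n ((Call (Rep.ofAlgebraAutOnUnits E F.toIntermediateField)).cl z hz)) =
      (Call (Rep.ofAlgebraAutOnUnits E F.toIntermediateField)).cl z hz :=
    LinearEquiv.symm_apply_apply _ _
  change (inflVc 𝒲 E F.toIntermediateField hF).mapH n
    ((Call.toGC (Rep.ofAlgebraAutOnUnits E F.toIntermediateField) n).symm _) = _
  rw [h1]
  rfl

/-- inflation between finite levels on cocycles -/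
theorem infT_toGC_cl (F F' : FiniteGaloisIntermediateField E Ω) (h : F ≤ F') {n : ℕ}
    (z : (Call (Rep.ofAlgebraAutOnUnits E F.toIntermediateField)).X n)
    (hz : (Call (Rep.ofAlgebraAutOnUnits E F.toIntermediateField)).d n z = 0) :
    infT E F F' h n (Call.toGC _ n
      ((Call (Rep.ofAlgebraAutOnUnits E F.toIntermediateField)).cl z hz)) =
      Call.toGC _ n ((Call (Rep.ofAlgebraAutOnUnits E F'.toIntermediateField)).cl
        ((galInfC E F.toIntermediateField F'.toIntermediateField h).f n z)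
        ((galInfC E F.toIntermediateField F'.toIntermediateField h).map_Z n hz)) := by
  letI := towerAlgebra E F.toIntermediateField F'.toIntermediateField h
  haveI := tower_isScalarTower E F.toIntermediateField F'.toIntermediateField h
  exact (Call.toGC_map (LocalUnr.resHom E E F.toIntermediateField F'.toIntermediateField)
    (galUnitsMap E E F.toIntermediateField F'.toIntermediateField) n _).symm

variable {𝒲 E}

/-- **(a)** every `𝒲`-smooth class comes from a coarse finite level above a given one -/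
theorem exists_inflHc_eq (hco : Csm.Coarser 𝒲 (basis K₀ Ω)) (hE : 𝒲.IsOpen E.fixingSubgroup)
    (F₀ : FiniteGaloisIntermediateField E Ω) (hF₀ : IsCLevel 𝒲 E F₀.toIntermediateField) {n : ℕ}
    (x : Hsm (cBasis 𝒲 E) (subRep E) n) :
    ∃ (F : FiniteGaloisIntermediateField E Ω) (_ : F₀ ≤ F)
      (hF : IsCLevel 𝒲 E F.toIntermediateField)
      (y : groupCohomology (Rep.ofAlgebraAutOnUnits E F.toIntermediateField) n),
      inflHc 𝒲 E F hF n y = x := by
  obtain ⟨a, ha, rfl⟩ := (Csm (cBasis 𝒲 E) (subRep E)).exists_rep x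
  obtain ⟨F, hF₀F, hF, z, hz⟩ := exists_inflVc_eq hco hE F₀ hF₀ a
  have hdz : (Call (Rep.ofAlgebraAutOnUnits E F.toIntermediateField)).d n z = 0 := by
    apply inflVc_injective 𝒲 E F.toIntermediateField hF (n + 1)
    rw [(inflVc 𝒲 E F.toIntermediateField hF).comm, hz, ha, map_zero]
  refine ⟨F, hF₀F, hF, Call.toGC _ n (Cpx.cl _ z hdz), ?_⟩
  rw [inflHc_toGC_cl]
  exact Cpx.cl_congr _ hz _

/-- **(c)** compatibility with inflation between coarse levels -/
theorem inflHc_infT (F F' : FiniteGaloisIntermediateField E Ω) (h : F ≤ F')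
    (hF : IsCLevel 𝒲 E F.toIntermediateField) (hF' : IsCLevel 𝒲 E F'.toIntermediateField) {n : ℕ}
    (y : groupCohomology (Rep.ofAlgebraAutOnUnits E F.toIntermediateField) n) :
    inflHc 𝒲 E F' hF' n (infT E F F' h n y) = inflHc 𝒲 E F hF n y := by
  obtain ⟨w, rfl⟩ := (Call.toGC (Rep.ofAlgebraAutOnUnits E F.toIntermediateField) n).surjective y
  obtain ⟨z, hz, rfl⟩ := (Call (Rep.ofAlgebraAutOnUnits E F.toIntermediateField)).exists_rep w
  rw [infT_toGC_cl, inflHc_toGC_cl, inflHc_toGC_cl]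
  exact Cpx.cl_congr _ (inflVc_galInfC F F' h hF hF' n z) _

/-- **(b)** a finite-level class dying in the `𝒲`-smooth cohomology dies at a larger coarse level -/
theorem exists_infT_eq_zero_c (hco : Csm.Coarser 𝒲 (basis K₀ Ω)) (hE : 𝒲.IsOpen E.fixingSubgroup)
    (F : FiniteGaloisIntermediateField E Ω) (hF : IsCLevel 𝒲 E F.toIntermediateField) {n : ℕ}
    (y : groupCohomology (Rep.ofAlgebraAutOnUnits E F.toIntermediateField) n)
    (hy : inflHc 𝒲 E F hF n y = 0) :
    ∃ (F' : FiniteGaloisIntermediateField E Ω) (h : F ≤ F')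
      (_ : IsCLevel 𝒲 E F'.toIntermediateField), infT E F F' h n y = 0 := by
  obtain ⟨w, rfl⟩ := (Call.toGC (Rep.ofAlgebraAutOnUnits E F.toIntermediateField) n).surjective y
  obtain ⟨z, hz, rfl⟩ := (Call (Rep.ofAlgebraAutOnUnits E F.toIntermediateField)).exists_rep w
  rw [inflHc_toGC_cl, Cpx.cl_eq_zero_iff] at hy
  suffices hsuff : ∃ (F' : FiniteGaloisIntermediateField E Ω) (h : F ≤ F')
      (_ : IsCLevel 𝒲 E F'.toIntermediateField),
      (galInfC E F.toIntermediateField F'.toIntermediateField h).f n z ∈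
        (Call (Rep.ofAlgebraAutOnUnits E F'.toIntermediateField)).B n by
    obtain ⟨F', h, hF', hB⟩ := hsuff
    refine ⟨F', h, hF', ?_⟩
    rw [infT_toGC_cl, Cpx.cl_eq_zero_iff.mpr hB, map_zero]
  cases n with
  | zero =>
    rw [Cpx.mem_B_zero] at hy
    have hz0 : z = 0 := inflVc_injective 𝒲 E F.toIntermediateField hF 0 (by rw [hy, map_zero])
    refine ⟨F, le_rfl, hF, ?_⟩
    rw [hz0, map_zero]
    exact Submodule.zero_mem _
  | succ n =>
    rw [Cpx.mem_B_succ] at hy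
    obtain ⟨x, hx⟩ := hy
    obtain ⟨F', hF', hcF', w, hw⟩ := exists_inflVc_eq hco hE F hF x
    refine ⟨F', hF', hcF', ?_⟩
    rw [Cpx.mem_B_succ]
    refine ⟨w, ?_⟩
    apply inflVc_injective 𝒲 E F'.toIntermediateField hcF' (n + 1)
    rw [(inflVc 𝒲 E F'.toIntermediateField hcF').comm, hw, hx, inflVc_galInfC F F' hF' hF hcF']

/-- a class of invariant `1/[F:E]` at a finite level, in tower shape -/
theorem exists_invTower_eq_one_div (F : IntermediateField E Ω) [FiniteDimensional E F]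
    [IsGalois E F] : ∃ u : H2 (Rep.ofAlgebraAutOnUnits E F),
      invTower E F u = (((1 : ℚ) / (Module.finrank E F : ℚ) : ℚ) : AddCircle (1 : ℚ)) :=
  exists_invLoc_eq_one_div E (F.restrictScalars K₀)

/-- **(CF3) for the coarse tower**: `H³_𝒲(Gal(Ω/E), Ωˣ)` has no `p`-torsion. -/
theorem Hc_three_eq_zero_of_pow_nsmul_eq_zero (hco : Csm.Coarser 𝒲 (basis K₀ Ω))
    (hE : 𝒲.IsOpen E.fixingSubgroup) (p : ℕ) [Fact p.Prime]
    (x : Hsm (cBasis 𝒲 E) (subRep E) 3) (m : ℕ) (hx : p ^ m • x = 0) : x = 0 := by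
  obtain ⟨F, -, hF, y, rfl⟩ := exists_inflHc_eq hco hE ⊥ isCLevel_bot x
  rw [← map_nsmul] at hx
  obtain ⟨F', h, hF', h0⟩ := exists_infT_eq_zero_c hco hE F hF _ hx
  rw [map_nsmul] at h0
  letI : Fintype ((F'.toIntermediateField.restrictScalars K₀) ≃ₐ[E]
      (F'.toIntermediateField.restrictScalars K₀)) := Fintype.ofFinite _
  have h1 : infT E F F' h 3 y = 0 :=
    H3_eq_zero_of_pow_nsmul_eq_zero E (F'.toIntermediateField.restrictScalars K₀) p
      (infT E F F' h 3 y) m h0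
  rw [← inflHc_infT F F' h hF hF' y, h1, map_zero]

/-- **(CF2a) for the coarse tower**: if the indices of the `W ∈ 𝒲` are divisible by arbitrary powers of
`p`, then `H²_𝒲(Gal(Ω/E), Ωˣ)` is `p`-divisible. -/
theorem Hc_two_pdivisible (hco : Csm.Coarser 𝒲 (basis K₀ Ω)) (hE : 𝒲.IsOpen E.fixingSubgroup)
    (p : ℕ) [hp : Fact p.Prime] (hidx : ∀ m : ℕ, ∃ W ∈ 𝒲.sets, p ^ m ∣ W.index)
    (y : Hsm (cBasis 𝒲 E) (subRep E) 2) : ∃ y' : Hsm (cBasis 𝒲 E) (subRep E) 2, p • y' = y := by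
  obtain ⟨F₀, -, hF₀, y₀, rfl⟩ := exists_inflHc_eq hco hE ⊥ isCLevel_bot y
  set n₀ := Module.finrank E F₀.toIntermediateField with hn₀
  set a := Module.finrank K₀ E with ha
  have hn₀pos : 0 < n₀ := Module.finrank_pos
  have hapos : 0 < a := Module.finrank_pos
  obtain ⟨W₁, hW₁, hdvd₁⟩ := hidx (a * n₀)
  obtain ⟨F, hF₀F, hF, -, W, hW, hWW₁, hWdvd⟩ :=
    exists_clevel hco hE F₀ hF₀ (U' := W₁) ⟨W₁, hW₁, le_rfl⟩
  set n := Module.finrank E F.toIntermediateField with hn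
  have hnpos : 0 < n := Module.finrank_pos
  obtain ⟨c, hc⟩ : n₀ ∣ n := IntermediateField.finrank_dvd_of_le_right hF₀F
  have hpc : p ∣ c := by
    by_contra hpc
    have h1 : p ^ (a * n₀) ∣ a * n :=
      (hdvd₁.trans (Subgroup.index_dvd_of_le hWW₁)).trans hWdvd
    rw [hc, ← mul_assoc] at h1
    have hcop : Nat.Coprime (p ^ (a * n₀)) c :=
      Nat.Coprime.pow_left _ ((Nat.Prime.coprime_iff_not_dvd hp.out).2 hpc)
    have h2 : p ^ (a * n₀) ∣ a * n₀ := hcop.dvd_of_dvd_mul_right h1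
    have := Nat.le_of_dvd (Nat.mul_pos hapos hn₀pos) h2
    exact absurd this (not_le.2 (Nat.lt_pow_self hp.out.one_lt))
  obtain ⟨c', rfl⟩ := hpc
  have hc'pos : 0 < c' := by
    rcases Nat.eq_zero_or_pos c' with h0 | h0
    · rw [h0, mul_zero, mul_zero] at hc
      exact absurd hc hnpos.ne'
    · exact h0
  obtain ⟨k, hk⟩ := invTower_exists_int E F₀.toIntermediateField y₀
  obtain ⟨u, hu⟩ := exists_invTower_eq_one_div F.toIntermediateField
  have key : p • ((k * (c' : ℤ)) • u) = infT E F₀ F hF₀F 2 y₀ := by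
    apply invTower_injective E F.toIntermediateField
    rw [invTower_infT, hk, map_nsmul, map_zsmul, hu, ← AddCircle.coe_zsmul,
      ← AddCircle.coe_nsmul]
    congr 1
    rw [← hn, ← hn₀, hc, nsmul_eq_mul, zsmul_eq_mul]
    have h1 : (n₀ : ℚ) ≠ 0 := Nat.cast_ne_zero.2 hn₀pos.ne'
    have h2 : (p : ℚ) ≠ 0 := Nat.cast_ne_zero.2 hp.out.ne_zero
    have h3 : (c' : ℚ) ≠ 0 := Nat.cast_ne_zero.2 hc'pos.ne'
    push_cast
    field_simp
  refine ⟨inflHc 𝒲 E F hF 2 ((k * (c' : ℤ)) • u), ?_⟩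
  rw [← map_nsmul, key, inflHc_infT]

end Coh

end Fermat.Agent.S56lib.PT9
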